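import Fermat.Agent.Multiplicative.NodeLine
/-!
# The reduction character of the nodal model

The multiplicative reduction of points of good reduction on `y² + xy = x³ + a`, via `y/(x+y)`.
-/

set_option autoImplicit false

namespace Fermat.Agent.Multiplicative

variable {K : Type*} [Field K] {Γ₀ : Type*} [LinearOrderedCommGroupWithZero Γ₀]
variable {v : Valuation K Γ₀} {a x y x₁ y₁ x₂ y₂ x₃ y₃ l m : K}

/-- The reduction character `y / (x + y)` of the nodal model. -/
def phi (x y : K) : K := y / (x + y)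

variable (ha : v a < 1)
include ha

lemma good_vals (h : OnNode a x y) (hx : 1 ≤ v x) :
    v (x + y) = v y ∧ v x ≤ v y ∧ v y * v y = v x * v x * v x := by
  have hx3 : v (y * (x + y)) = v x * v x * v x := by
    have hcube : v (x ^ 3) = v x * v x * v x := by rw [map_pow, pow_succ, pow_two]
    rw [h, Valuation.map_add_eq_of_lt_left v, hcube]
    rw [hcube]
    exact ha.trans_le (one_le_mul (one_le_mul hx hx) hx)
  rw [map_mul] at hx3
  have hx0 : 0 < v x := zero_lt_one.trans_le hx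
  rcases lt_trichotomy (v x) (v y) with c | c | c
  · have e := Valuation.map_add_eq_of_lt_right v c
    exact ⟨e, c.le, by rw [e] at hx3; exact hx3⟩
  · have hle : v (x + y) ≤ v x := Valuation.map_add_le v le_rfl c.ge
    rw [← c, mul_assoc] at hx3
    have e : v (x + y) = v x * v x := mul_left_cancel₀ hx0.ne' hx3
    have h1 : v x * v x = v x := le_antisymm (e ▸ hle) (le_mul_of_one_le_left zero_le hx)
    refine ⟨by rw [e, h1]; exact c, c.le, ?_⟩
    rw [← c]
    rw [h1, h1]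
  · exfalso
    rw [Valuation.map_add_eq_of_lt_left v c] at hx3
    have e : v y = v x * v x := mul_right_cancel₀ hx0.ne' hx3
    exact absurd (e ▸ c) (not_lt.2 (le_mul_of_one_le_left zero_le hx))

lemma good_y_one_le (h : OnNode a x y) (hx : 1 ≤ v x) : 1 ≤ v y :=
  hx.trans (good_vals ha h hx).2.1

lemma sum_ne_zero (h : OnNode a x y) (hx : 1 ≤ v x) : x + y ≠ 0 := by
  intro h0
  have h1 := good_y_one_le ha h hx
  rw [← (good_vals ha h hx).1, h0, map_zero] at h1
  exact absurd h1 (not_le.2 zero_lt_one)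

lemma v_phi (h : OnNode a x y) (hx : 1 ≤ v x) : v (phi x y) = 1 := by
  rw [phi, map_div₀, (good_vals ha h hx).1, div_self]
  exact (zero_lt_one.trans_le (good_y_one_le ha h hx)).ne'

lemma v_phi_sub_one (h : OnNode a x y) (hx : 1 ≤ v x) : v (phi x y - 1) = v x / v y := by
  have e : phi x y - 1 = -(x / (x + y)) := by
    rw [phi, div_sub_one (sum_ne_zero ha h hx), ← neg_div]
    ring_nf
  rw [e, Valuation.map_neg, map_div₀, (good_vals ha h hx).1]

lemma phi_sub_one_lt_iff (h : OnNode a x y) (hx : 1 ≤ v x) :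
    v (phi x y - 1) < 1 ↔ 1 < v x := by
  obtain ⟨-, hle, hsq⟩ := good_vals ha h hx
  rw [v_phi_sub_one ha h hx, div_lt_one₀ (zero_lt_one.trans_le (hx.trans hle))]
  constructor
  · intro hlt
    refine hx.lt_of_ne fun e => ?_
    rw [← e, one_mul, one_mul] at hsq
    rw [← e] at hlt
    exact hsq.not_gt (one_lt_mul hlt.le hlt)
  · intro hgt
    refine hle.lt_of_ne fun e => ?_
    rw [← e] at hsq
    exact hsq.not_lt (lt_mul_of_one_lt_right
      (mul_pos (zero_lt_one.trans hgt) (zero_lt_one.trans hgt)) hgt)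

omit ha in
lemma triple_prod_y (h : Triple a x₁ y₁ x₂ y₂ x₃ y₃ l m) :
    y₁ * y₂ * y₃ = m ^ 3 - l ^ 3 * a := by
  rw [h.hy₁, h.hy₂, h.hy₃]
  linear_combination l ^ 3 * h.sum₃ + l ^ 2 * m * h.sum₂ + l * m ^ 2 * h.sum₁

omit ha in
lemma triple_prod_sum (h : Triple a x₁ y₁ x₂ y₂ x₃ y₃ l m) :
    (x₁ + y₁) * (x₂ + y₂) * (x₃ + y₃) = m ^ 3 - (1 + l) ^ 3 * a := by
  linear_combination (-1) * triple_prod_y h.neg

/-- Near-multiplicativity of `phi` on collinear triples of good points. -/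
theorem phi_prod (h : Triple a x₁ y₁ x₂ y₂ x₃ y₃ l m)
    (h₁ : 1 ≤ v x₁) (h₂ : 1 ≤ v x₂) (h₃ : 1 ≤ v x₃) :
    v (phi x₁ y₁ * phi x₂ y₂ * phi x₃ y₃ - 1) < v (phi x₁ y₁ - 1) := by
  obtain ⟨es₁, le₁, -⟩ := good_vals ha h.onNode₁ h₁
  obtain ⟨es₂, le₂, -⟩ := good_vals ha h.onNode₂ h₂
  obtain ⟨es₃, le₃, -⟩ := good_vals ha h.onNode₃ h₃
  have p₁ : 1 ≤ v y₁ := h₁.trans le₁
  have p₂ : 1 ≤ v y₂ := h₂.trans le₂
  have p₃ : 1 ≤ v y₃ := h₃.trans le₃
  have q₁ : 0 < v y₁ := zero_lt_one.trans_le p₁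
  have s₁ := sum_ne_zero ha h.onNode₁ h₁
  have s₂ := sum_ne_zero ha h.onNode₂ h₂
  have s₃ := sum_ne_zero ha h.onNode₃ h₃
  have e : phi x₁ y₁ * phi x₂ y₂ * phi x₃ y₃ - 1 =
      a * (3 * (x₁ + x₂ + x₃) + 1) / ((x₁ + y₁) * (x₂ + y₂) * (x₃ + y₃)) := by
    rw [phi, phi, phi, div_mul_div_comm, div_mul_div_comm,
      div_sub_one (mul_ne_zero (mul_ne_zero s₁ s₂) s₃)]
    congr 1
    linear_combination triple_prod_y h - triple_prod_sum h - 3 * a * h.sum₁
  have eD : v ((x₁ + y₁) * (x₂ + y₂) * (x₃ + y₃)) = v y₁ * v y₂ * v y₃ := by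
    rw [map_mul, map_mul, es₁, es₂, es₃]
  have hD : 0 < v y₁ * v y₂ * v y₃ :=
    mul_pos (mul_pos q₁ (zero_lt_one.trans_le p₂)) (zero_lt_one.trans_le p₃)
  rw [e, map_div₀, map_mul, eD, v_phi_sub_one ha h.onNode₁ h₁, div_lt_div_iff₀ hD q₁]
  have hX : v (3 * (x₁ + x₂ + x₃) + 1) ≤ max (v x₁) (max (v x₂) (v x₃)) := by
    refine Valuation.map_add_le v ?_ (by rw [map_one]; exact h₁.trans (le_max_left _ _))
    rw [map_mul]
    have h3 : v (3 : K) ≤ 1 := by
      rw [show (3 : K) = 1 + 1 + 1 by ring]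
      exact Valuation.map_add_le v (Valuation.map_add_le v (map_one v).le (map_one v).le)
        (map_one v).le
    refine (mul_le_of_le_one_left zero_le h3).trans ?_
    exact Valuation.map_add_le v (Valuation.map_add_le v (le_max_left _ _)
      ((le_max_left _ _).trans (le_max_right _ _))) ((le_max_right _ _).trans (le_max_right _ _))
  have hM : 0 < max (v x₁) (max (v x₂) (v x₃)) * v y₁ :=
    mul_pos ((zero_lt_one.trans_le h₁).trans_le (le_max_left _ _)) q₁
  refine (mul_le_mul_of_nonneg_right (mul_le_mul_of_nonneg_left hX zero_le) zero_le).trans_lt ?_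
  rw [mul_assoc]
  refine (mul_lt_of_lt_one_left hM ha).trans_le ?_
  rcases max_choice (v x₁) (max (v x₂) (v x₃)) with hc | hc <;> rw [hc]
  · exact mul_le_mul_of_nonneg_left
      ((le_mul_of_one_le_right zero_le p₂).trans (le_mul_of_one_le_right zero_le p₃)) zero_le
  · refine le_trans ?_ (le_mul_of_one_le_left zero_le h₁)
    rcases max_choice (v x₂) (v x₃) with hd | hd <;> rw [hd]
    · calc v x₂ * v y₁ ≤ v y₂ * v y₁ := mul_le_mul_of_nonneg_right le₂ zero_le
        _ = v y₁ * v y₂ := mul_comm _ _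
        _ ≤ v y₁ * v y₂ * v y₃ := le_mul_of_one_le_right zero_le p₃
    · calc v x₃ * v y₁ ≤ v y₁ * v y₃ := by
            rw [mul_comm (v y₁)]; exact mul_le_mul_of_nonneg_right le₃ zero_le
        _ ≤ v y₁ * v y₂ * v y₃ :=
            mul_le_mul_of_nonneg_right (le_mul_of_one_le_right zero_le p₂) zero_le

end Fermat.Agent.Multiplicative
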