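import Mathlib.AlgebraicGeometry.EllipticCurve.Affine.Point
import Mathlib.GroupTheory.QuotientGroup.Basic
import Fermat.Agent.Multiplicative.NodeRed
/-!
# Component homomorphism and reduction character

The component homomorphism and reduction character on points of a Weierstrass curve that has
been brought to the nodal normal form `y² + xy = x³ + a`, `|a| < 1`.
-/

set_option autoImplicit false

namespace Fermat.Agent.Multiplicative

open WeierstrassCurve

variable {K : Type*} [Field K] {Γ₀ : Type*} [LinearOrderedCommGroupWithZero Γ₀]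

/-- Coordinates `x = u² X + r`, `y = u³ Y + s u² X + t` in which the curve `V` becomes
`Y² + XY = X³ + a`, with `u` a `v`-unit, `r, s, t` integral and `|a| < 1`. -/
structure NodeData (v : Valuation K Γ₀) (V : WeierstrassCurve K) where
  /-- scaling -/
  u : K
  /-- translation of `x` -/
  r : K
  /-- shearing -/
  s : K
  /-- translation of `y` -/
  t : K
  /-- the constant of the normal form -/
  a : K
  hu : v u = 1
  hr : v r ≤ 1
  hs : v s ≤ 1
  ht : v t ≤ 1
  ha₀ : a ≠ 0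
  ha : v a < 1
  eq₁ : V.a₁ + 2 * s = u
  eq₂ : V.a₂ - s * V.a₁ + 3 * r - s ^ 2 = 0
  eq₃ : V.a₃ + r * V.a₁ + 2 * t = 0
  eq₄ : V.a₄ - s * V.a₃ + 2 * r * V.a₂ - (t + r * s) * V.a₁ + 3 * r ^ 2 - 2 * s * t = 0
  eq₆ : V.a₆ + r * V.a₄ + r ^ 2 * V.a₂ + r ^ 3 - t * V.a₃ - t ^ 2 - r * t * V.a₁ = u ^ 6 * a

/-- Natural numbers are integral. -/
lemma natCast_le_one (v : Valuation K Γ₀) : ∀ k : ℕ, v (k : K) ≤ 1
  | 0 => by simp
  | k + 1 => by
    rw [Nat.cast_succ]
    exact Valuation.map_add_le v (natCast_le_one v k) (map_one v).le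

namespace NodeData

variable {v : Valuation K Γ₀} {V : WeierstrassCurve K} (N : NodeData v V)

lemma u_ne_zero : N.u ≠ 0 := fun h => by simpa [h] using N.hu

/-- The normalised `x`-coordinate. -/
def X (x : K) : K := (x - N.r) / N.u ^ 2

/-- The normalised `y`-coordinate. -/
def Y (x y : K) : K := (y - N.s * (x - N.r) - N.t) / N.u ^ 3

lemma v_X (x : K) : v (N.X x) = v (x - N.r) := by
  rw [X, map_div₀, map_pow, N.hu, one_pow, div_one]

lemma v_X_of_gt {x : K} (h : 1 < v x) : v (N.X x) = v x := by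
  rw [v_X, Valuation.map_sub_eq_of_lt_left v (N.hr.trans_lt h)]

lemma Y_negY (x y : K) : N.Y x (V.toAffine.negY x y) = -(N.X x) - N.Y x y := by
  have hu := N.u_ne_zero
  simp only [Affine.negY, X, Y]
  field_simp
  linear_combination (N.r - x) * N.eq₁ - N.eq₃

lemma onNode {x y : K} (h : V.toAffine.Equation x y) : OnNode N.a (N.X x) (N.Y x y) := by
  have hu := N.u_ne_zero
  rw [Affine.equation_iff] at h
  simp only [OnNode, X, Y]
  field_simp
  linear_combination h + (x - N.r) * N.eq₄ + (x - N.r) ^ 2 * N.eq₂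
    - (y - N.s * (x - N.r) - N.t) * N.eq₃
    - (x - N.r) * (y - N.s * (x - N.r) - N.t) * N.eq₁ + N.eq₆

lemma triple [DecidableEq K] {x₁ y₁ x₂ y₂ : K} (h₁ : V.toAffine.Equation x₁ y₁)
    (h₂ : V.toAffine.Equation x₂ y₂) (hxy : ¬(x₁ = x₂ ∧ y₁ = V.toAffine.negY x₂ y₂)) :
    let L := V.toAffine.slope x₁ x₂ y₁ y₂
    let x₃ := V.toAffine.addX x₁ x₂ L
    let y₃ := V.toAffine.negAddY x₁ x₂ y₁ L
    ∃ l m : K, Triple N.a (N.X x₁) (N.Y x₁ y₁) (N.X x₂) (N.Y x₂ y₂) (N.X x₃) (N.Y x₃ y₃) l m := by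
  intro L x₃ y₃
  have hu := N.u_ne_zero
  have hpoly := Affine.addPolynomial_slope h₁ h₂ hxy
  rw [Affine.addPolynomial_eq] at hpoly
  rw [neg_inj, Cubic.prod_X_sub_C_eq, Cubic.toPoly_injective, Cubic.ext_iff] at hpoly
  obtain ⟨-, hb, hc, hd⟩ := hpoly
  simp only at hb hc hd
  refine ⟨(L - N.s) / N.u, (y₁ - L * x₁ + L * N.r - N.t) / N.u ^ 3, ⟨?_, ?_, ?_, ?_, ?_, ?_⟩⟩
  · simp only [X, Y]; field_simp; ring
  · simp only [X, Y]; field_simp
    have hl : y₂ = L * (x₂ - x₁) + y₁ := by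
      by_cases hx : x₁ = x₂
      · subst hx
        have := Affine.Y_eq_of_Y_ne h₁ h₂ rfl (fun h => hxy ⟨rfl, h⟩)
        rw [this]; ring
      · simp only [L, Affine.slope_of_X_ne hx]
        have : x₁ - x₂ ≠ 0 := sub_ne_zero.2 hx
        field_simp
        ring
    linear_combination hl
  · simp only [X, Y, y₃, Affine.negAddY]; field_simp; ring
  · simp only [X]; field_simp
    linear_combination hb - N.eq₂ + (L - N.s) * N.eq₁
  · simp only [X]; field_simp
    linear_combination -hc - 2 * N.r * hb + N.eq₄ - (L - N.s) * N.eq₃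
      - (y₁ - L * x₁ + L * N.r - N.t) * N.eq₁
  · simp only [X]; field_simp
    linear_combination hd + N.r * hc + N.r ^ 2 * hb - N.eq₆
      + (y₁ - L * x₁ + L * N.r - N.t) * N.eq₃

/-! ### Functions on points -/

/-- The valuation of a component representative of a point. -/
def wPoint : V.toAffine.Point → Γ₀
  | .zero => 1
  | .some x y _ => wv v N.a (N.X x) (N.Y x y)

/-- `P` reduces to a nonsingular point of the special fibre. -/
def Good : V.toAffine.Point → Prop
  | .zero => True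
  | .some x _ _ => 1 ≤ v (N.X x)

/-- The reduction character, as a function with values in `K`. -/
def phiPoint : V.toAffine.Point → K
  | .zero => 1
  | .some x y _ => phi (N.X x) (N.Y x y)

lemma wPoint_ne_zero : ∀ P : V.toAffine.Point, N.wPoint P ≠ 0
  | .zero => one_ne_zero
  | .some _ _ h => wv_ne_zero N.ha₀ N.ha (N.onNode h.left)

/-- The component group: values of the valuation modulo powers of `|a|`. -/
abbrev CompGroup : Type _ :=
  Γ₀ˣ ⧸ Subgroup.zpowers (Units.mk0 (v N.a) ((map_ne_zero v).2 N.ha₀))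

/-- The component of a point, multiplicatively. -/
def cls (P : V.toAffine.Point) : N.CompGroup :=
  QuotientGroup.mk (Units.mk0 (N.wPoint P) (N.wPoint_ne_zero P))

lemma cls_zero : N.cls 0 = 1 := by
  have : Units.mk0 (N.wPoint 0) (N.wPoint_ne_zero 0) = 1 := Units.ext rfl
  rw [cls, this, QuotientGroup.mk_one]

lemma cls_neg (P : V.toAffine.Point) : N.cls (-P) = (N.cls P)⁻¹ := by
  rw [eq_inv_iff_mul_eq_one, cls, cls, ← QuotientGroup.mk_mul, QuotientGroup.eq_one_iff]
  cases P with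
  | zero =>
    have e : -(Affine.Point.zero : V.toAffine.Point) = Affine.Point.zero := rfl
    refine Subgroup.mem_zpowers_iff.2 ⟨0, Units.ext ?_⟩
    simp only [zpow_zero, Units.val_one, Units.val_mul, Units.val_mk0, e, wPoint, one_mul]
  | some x y h =>
    rw [Subgroup.mem_zpowers_iff]
    by_cases hX : v (N.X x) < 1
    · refine ⟨1, Units.ext ?_⟩
      simp only [zpow_one, Units.val_mk0, Units.val_mul, Affine.Point.neg_some, wPoint, N.Y_negY]
      exact (wv_neg N.ha₀ N.ha (N.onNode h.left) hX).symm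
    · refine ⟨0, Units.ext ?_⟩
      simp only [zpow_zero, Units.val_one, Units.val_mk0, Units.val_mul, Affine.Point.neg_some,
        wPoint, wv_eq_one (not_lt.1 hX), one_mul]

variable [DecidableEq K]

/-- Every pair of points is either degenerate or lies on a line with a third point. -/
lemma point_cases (P Q : V.toAffine.Point) :
    P = 0 ∨ Q = 0 ∨ Q = -P ∨
    ∃ (x₁ y₁ x₂ y₂ x₃ y₃ : K) (h₁ : V.toAffine.Nonsingular x₁ y₁)
      (h₂ : V.toAffine.Nonsingular x₂ y₂) (h₃ : V.toAffine.Nonsingular x₃ y₃) (l m : K),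
      P = .some x₁ y₁ h₁ ∧ Q = .some x₂ y₂ h₂ ∧ P + Q = -.some x₃ y₃ h₃ ∧
      Triple N.a (N.X x₁) (N.Y x₁ y₁) (N.X x₂) (N.Y x₂ y₂) (N.X x₃) (N.Y x₃ y₃) l m := by
  rcases P with _ | ⟨x₁, y₁, h₁⟩
  · exact Or.inl rfl
  rcases Q with _ | ⟨x₂, y₂, h₂⟩
  · exact Or.inr (Or.inl rfl)
  by_cases hxy : x₁ = x₂ ∧ y₁ = V.toAffine.negY x₂ y₂
  · refine Or.inr (Or.inr (Or.inl ?_))
    obtain ⟨rfl, rfl⟩ := hxy
    rw [Affine.Point.neg_some]
    simp only [Affine.negY_negY]
  · obtain ⟨l, m, hT⟩ := N.triple h₁.left h₂.left hxy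
    refine Or.inr (Or.inr (Or.inr ⟨x₁, y₁, x₂, y₂, _, _, h₁, h₂,
      Affine.nonsingular_negAdd h₁ h₂ hxy, l, m, rfl, rfl, ?_, hT⟩))
    rw [Affine.Point.add_some hxy, Affine.Point.neg_some]
    rfl

lemma cls_add (P Q : V.toAffine.Point) : N.cls (P + Q) = N.cls P * N.cls Q := by
  rcases N.point_cases P Q with rfl | rfl | rfl |
      ⟨x₁, y₁, x₂, y₂, x₃, y₃, h₁, h₂, h₃, l, m, rfl, rfl, hsum, hT⟩
  · rw [zero_add, cls_zero, one_mul]
  · rw [add_zero, cls_zero, mul_one]
  · rw [add_neg_cancel, cls_zero, cls_neg, mul_inv_cancel]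
  · obtain ⟨k, hk⟩ := wv_prod N.ha₀ N.ha hT
    rw [hsum, cls_neg, inv_eq_iff_mul_eq_one, cls, cls, cls, ← QuotientGroup.mk_mul,
      ← QuotientGroup.mk_mul, QuotientGroup.eq_one_iff, Subgroup.mem_zpowers_iff]
    refine ⟨k, Units.ext ?_⟩
    simp only [zpow_natCast, Units.val_pow_eq_pow_val, Units.val_mul, Units.val_mk0, wPoint, ← hk]
    ac_rfl

/-- The component homomorphism. -/
def comp : V.toAffine.Point →+ Additive N.CompGroup where
  toFun P := Additive.ofMul (N.cls P)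
  map_zero' := congrArg Additive.ofMul N.cls_zero
  map_add' P Q := congrArg Additive.ofMul (N.cls_add P Q)

lemma comp_apply (P : V.toAffine.Point) : N.comp P = Additive.ofMul (N.cls P) := rfl

omit [DecidableEq K] in
lemma wPoint_mem (P : V.toAffine.Point) :
    N.wPoint P = 1 ∧ N.Good P ∨ v N.a < N.wPoint P ∧ N.wPoint P < 1 ∧ ¬ N.Good P := by
  cases P with
  | zero => exact Or.inl ⟨rfl, trivial⟩
  | some x y h =>
    by_cases hX : v (N.X x) < 1
    · have := wv_mem N.ha₀ N.ha (N.onNode h.left) hX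
      exact Or.inr ⟨this.1, this.2, not_le.2 hX⟩
    · exact Or.inl ⟨wv_eq_one (not_lt.1 hX), not_lt.1 hX⟩

lemma comp_eq_zero_iff (P : V.toAffine.Point) : N.comp P = 0 ↔ N.Good P := by
  rw [comp_apply, ofMul_eq_zero, cls, QuotientGroup.eq_one_iff]
  rcases N.wPoint_mem P with ⟨hw, hg⟩ | ⟨h1, h2, hg⟩
  · refine iff_of_true ?_ hg
    rw [show Units.mk0 (N.wPoint P) (N.wPoint_ne_zero P) = 1 from Units.ext hw]
    exact one_mem _
  · refine iff_of_false (fun hmem => ?_) hg
    obtain ⟨k, hk⟩ := Subgroup.mem_zpowers_iff.1 hmem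
    have hk' : v N.a ^ k = N.wPoint P := by simpa using congrArg Units.val hk
    have hpos : 0 < v N.a := zero_lt_iff.2 ((map_ne_zero v).2 N.ha₀)
    rw [← hk'] at h1 h2
    conv_lhs at h1 => rw [← zpow_one (v N.a)]
    rw [← zpow_zero (v N.a)] at h2
    have e1 := (zpow_lt_zpow_iff_right_of_lt_one₀ hpos N.ha).1 h1
    have e2 := (zpow_lt_zpow_iff_right_of_lt_one₀ hpos N.ha).1 h2
    omega

/-- The subgroup of points with nonsingular reduction. -/
def E0 : AddSubgroup V.toAffine.Point := N.comp.ker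

lemma mem_E0 {P : V.toAffine.Point} : P ∈ N.E0 ↔ N.Good P :=
  AddMonoidHom.mem_ker.trans (N.comp_eq_zero_iff P)

/-! ### The reduction character on `E0` -/

omit [DecidableEq K] in
lemma v_phiPoint {P : V.toAffine.Point} (hP : N.Good P) : v (N.phiPoint P) = 1 := by
  cases P with
  | zero => exact map_one v
  | some x y h => exact v_phi N.ha (N.onNode h.left) hP

omit [DecidableEq K] in
lemma phiPoint_zero : N.phiPoint 0 = 1 := rfl

omit [DecidableEq K] in
lemma phiPoint_neg {P : V.toAffine.Point} (hP : N.Good P) :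
    N.phiPoint (-P) = (N.phiPoint P)⁻¹ := by
  cases P with
  | zero => exact inv_one.symm
  | some x y h =>
    simp only [Affine.Point.neg_some, phiPoint, N.Y_negY, phi]
    rw [inv_div, show N.X x + (-(N.X x) - N.Y x y) = -(N.Y x y) by ring,
      show -(N.X x) - N.Y x y = -(N.X x + N.Y x y) by ring, neg_div_neg_eq]

omit [DecidableEq K] in
lemma v_phiPoint_sub_one_le {P : V.toAffine.Point} (hP : N.Good P) :
    v (N.phiPoint P - 1) ≤ 1 :=
  Valuation.map_sub_le v (N.v_phiPoint hP).le (map_one v).le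

omit [DecidableEq K] in
lemma v_phiPoint_sub_one_pos {P : V.toAffine.Point} (hP : N.Good P) (h0 : P ≠ 0) :
    0 < v (N.phiPoint P - 1) := by
  cases P with
  | zero => exact absurd rfl h0
  | some x y h =>
    simp only [phiPoint]
    rw [v_phi_sub_one N.ha (N.onNode h.left) hP]
    exact div_pos (zero_lt_one.trans_le hP)
      (zero_lt_one.trans_le (good_y_one_le N.ha (N.onNode h.left) hP))

/-- `phiPoint` is multiplicative up to an error smaller than `φ(P) - 1`. -/
lemma phiPoint_add {P Q : V.toAffine.Point} (hP : P ∈ N.E0) (hQ : Q ∈ N.E0) (h0 : P ≠ 0) :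
    v (N.phiPoint (P + Q) - N.phiPoint P * N.phiPoint Q) < v (N.phiPoint P - 1) := by
  have hP' := N.mem_E0.1 hP
  have hpos := N.v_phiPoint_sub_one_pos hP' h0
  rcases N.point_cases P Q with rfl | rfl | rfl |
      ⟨x₁, y₁, x₂, y₂, x₃, y₃, h₁, h₂, h₃, l, m, rfl, rfl, hsum, hT⟩
  · exact absurd rfl h0
  · simpa [phiPoint_zero] using hpos
  · rw [add_neg_cancel, N.phiPoint_neg hP', phiPoint_zero, mul_inv_cancel₀, sub_self, map_zero]
    · exact hpos
    · intro h; simpa [h] using N.v_phiPoint hP'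
  · have hR : Affine.Point.some x₃ y₃ h₃ ∈ N.E0 :=
      neg_mem_iff.1 (hsum ▸ N.E0.add_mem hP hQ)
    have hR' := N.mem_E0.1 hR
    have key := phi_prod N.ha hT hP' (N.mem_E0.1 hQ) hR'
    have hv : v (phi (N.X x₃) (N.Y x₃ y₃)) = 1 := N.v_phiPoint hR'
    have hne : phi (N.X x₃) (N.Y x₃ y₃) ≠ 0 := by intro h; simp [h] at hv
    rw [hsum, N.phiPoint_neg hR']
    simp only [phiPoint]
    rw [show (phi (N.X x₃) (N.Y x₃ y₃))⁻¹ -
        phi (N.X x₁) (N.Y x₁ y₁) * phi (N.X x₂) (N.Y x₂ y₂) =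
        -((phi (N.X x₁) (N.Y x₁ y₁) * phi (N.X x₂) (N.Y x₂ y₂) * phi (N.X x₃) (N.Y x₃ y₃) - 1) /
          phi (N.X x₃) (N.Y x₃ y₃)) by field_simp; ring, Valuation.map_neg, map_div₀, hv, div_one]
    exact key

lemma phiPoint_add_lt_one {P Q : V.toAffine.Point} (hP : P ∈ N.E0) (hQ : Q ∈ N.E0) :
    v (N.phiPoint (P + Q) - N.phiPoint P * N.phiPoint Q) < 1 := by
  rcases eq_or_ne P 0 with rfl | h0
  · simp [phiPoint_zero]
  · exact (N.phiPoint_add hP hQ h0).trans_le (N.v_phiPoint_sub_one_le (N.mem_E0.1 hP))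

lemma phiPoint_nsmul {P : V.toAffine.Point} (hP : P ∈ N.E0) (h0 : P ≠ 0)
    (hlt : v (N.phiPoint P - 1) < 1) :
    ∀ k : ℕ, v (N.phiPoint (k • P) - 1 - k * (N.phiPoint P - 1)) < v (N.phiPoint P - 1)
  | 0 => by simpa [phiPoint_zero] using N.v_phiPoint_sub_one_pos (N.mem_E0.1 hP) h0
  | k + 1 => by
    have ih := phiPoint_nsmul hP h0 hlt k
    have hadd := N.phiPoint_add hP (N.E0.nsmul_mem hP k) h0
    have hz := N.v_phiPoint_sub_one_pos (N.mem_E0.1 hP) h0
    rw [succ_nsmul']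
    have e : N.phiPoint (P + k • P) - 1 - ((k + 1 : ℕ) : K) * (N.phiPoint P - 1) =
        (N.phiPoint (P + k • P) - N.phiPoint P * N.phiPoint (k • P)) +
        ((N.phiPoint P - 1) * ((k : K) * (N.phiPoint P - 1)) +
          N.phiPoint P * (N.phiPoint (k • P) - 1 - (k : K) * (N.phiPoint P - 1))) := by
      push_cast; ring
    rw [e]
    refine Valuation.map_add_lt v hadd (Valuation.map_add_lt v ?_ ?_)
    · rw [map_mul, map_mul]
      exact mul_lt_of_lt_one_right hz
        ((mul_le_of_le_one_left zero_le (natCast_le_one v k)).trans_lt hlt)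
    · rw [map_mul, N.v_phiPoint (N.mem_E0.1 hP), one_mul]
      exact ih

/-- The kernel of reduction has no torsion prime to the residue characteristic. -/
lemma eq_zero_of_nsmul_eq_zero {P : V.toAffine.Point} (hP : P ∈ N.E0)
    (hlt : v (N.phiPoint P - 1) < 1) {n : ℕ} (hn : v (n : K) = 1) (hnP : n • P = 0) : P = 0 := by
  by_contra h0
  have h := N.phiPoint_nsmul hP h0 hlt n
  rw [hnP, phiPoint_zero, sub_self, zero_sub, Valuation.map_neg, map_mul, hn, one_mul] at h
  exact lt_irrefl _ h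

end NodeData

end Fermat.Agent.Multiplicative
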