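import Mathlib.AlgebraicGeometry.EllipticCurve.VariableChange
import Mathlib.FieldTheory.IsAlgClosed.Basic
import Fermat.Agent.Multiplicative.NodePoint
/-!
# Existence of the nodal normal form

Existence and rigidity of the nodal normal form, and comparison with nonsingular reduction.
-/

set_option autoImplicit false

namespace Fermat.Agent.Multiplicative

open WeierstrassCurve

variable {K : Type*} [Field K] {Γ₀ : Type*} [LinearOrderedCommGroupWithZero Γ₀]
variable {v : Valuation K Γ₀} {V : WeierstrassCurve K}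

lemma eq_one_of_mul_eq_one {α β : Γ₀} (hα : α ≤ 1) (hβ : β ≤ 1) (h : α * β = 1) : α = 1 :=
  le_antisymm hα (h ▸ mul_le_of_le_one_right zero_le hβ)

lemma v_ofNat_le_one (v : Valuation K Γ₀) (n : ℕ) [n.AtLeastTwo] : v (OfNat.ofNat n : K) ≤ 1 := by
  rw [← Nat.cast_ofNat (R := K)]; exact natCast_le_one v n

namespace NodeData

variable (N : NodeData v V)

/-- The variable change of a nodal normal form. -/
def change : VariableChange K := ⟨Units.mk0 N.u N.u_ne_zero, N.r, N.s, N.t⟩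

lemma change_smul : N.change • V = ⟨1, 0, 0, 0, N.a⟩ := by
  have hu := N.u_ne_zero
  ext
  · simp only [change, variableChange_a₁, Units.val_inv_eq_inv_val, Units.val_mk0]
    field_simp; linear_combination N.eq₁
  · simp only [change, variableChange_a₂, Units.val_inv_eq_inv_val, Units.val_mk0]
    field_simp; linear_combination N.eq₂
  · simp only [change, variableChange_a₃, Units.val_inv_eq_inv_val, Units.val_mk0]
    field_simp; linear_combination N.eq₃
  · simp only [change, variableChange_a₄, Units.val_inv_eq_inv_val, Units.val_mk0]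
    field_simp; linear_combination N.eq₄
  · simp only [change, variableChange_a₆, Units.val_inv_eq_inv_val, Units.val_mk0]
    field_simp; linear_combination N.eq₆

lemma v_a_eq : v N.a = v V.Δ := by
  have h := congrArg v (congrArg WeierstrassCurve.Δ N.change_smul)
  rw [variableChange_Δ] at h
  simp only [change, Units.val_inv_eq_inv_val, Units.val_mk0, map_mul, map_pow, map_inv₀, N.hu,
    inv_one, one_pow, one_mul] at h
  rw [h]
  have e : (⟨1, 0, 0, 0, N.a⟩ : WeierstrassCurve K).Δ = -(N.a * (1 + 432 * N.a)) := by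
    simp only [WeierstrassCurve.Δ, b₂, b₄, b₆, b₈]; ring
  rw [e, Valuation.map_neg, map_mul, Valuation.map_add_eq_of_lt_left v, map_one, mul_one]
  rw [map_one, map_mul]
  exact (mul_le_of_le_one_left zero_le (v_ofNat_le_one v 432)).trans_lt N.ha

/-- For an integral point, good reduction is nonvanishing of one of the partial derivatives. -/
lemma good_some_iff (_ha₁ : v V.a₁ ≤ 1) (_ha₃ : v V.a₃ ≤ 1) {x y : K}
    (h : V.toAffine.Nonsingular x y) (hx : v x ≤ 1) (_hy : v y ≤ 1) :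
    N.Good (.some x y h) ↔
      ¬(v (V.a₁ * y - (3 * x ^ 2 + 2 * V.a₂ * x + V.a₄)) < 1 ∧
        v (2 * y + V.a₁ * x + V.a₃) < 1) := by
  have hu := N.u_ne_zero
  set P := V.a₁ * y - (3 * x ^ 2 + 2 * V.a₂ * x + V.a₄) with hP
  set Q := 2 * y + V.a₁ * x + V.a₃ with hQ
  have eQ : 2 * N.Y x y + N.X x = Q / N.u ^ 3 := by
    simp only [X, Y, hQ]; field_simp
    linear_combination -(x - N.r) * N.eq₁ - N.eq₃
  have eP : N.Y x y - 3 * N.X x ^ 2 = (P + N.s * Q) / N.u ^ 4 := by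
    simp only [X, Y, hP, hQ]; field_simp
    linear_combination -(y - N.s * (x - N.r) - N.t) * N.eq₁ + 2 * (x - N.r) * N.eq₂ + N.eq₄
  have eq3 : v (2 * N.Y x y + N.X x) = v Q := by
    rw [eQ, map_div₀, map_pow, N.hu, one_pow, div_one]
  have eq4 : v (N.Y x y - 3 * N.X x ^ 2) = v (P + N.s * Q) := by
    rw [eP, map_div₀, map_pow, N.hu, one_pow, div_one]
  have hiff : (v P < 1 ∧ v Q < 1) ↔
      (v (N.Y x y - 3 * N.X x ^ 2) < 1 ∧ v (2 * N.Y x y + N.X x) < 1) := by
    rw [eq3, eq4]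
    refine and_congr_left fun hQ1 => ?_
    have hsQ : v (N.s * Q) < 1 := by
      rw [map_mul]; exact (mul_le_of_le_one_left zero_le N.hs).trans_lt hQ1
    constructor
    · intro hP1; exact Valuation.map_add_lt v hP1 hsQ
    · intro hPQ
      simpa using Valuation.map_sub_lt v hPQ hsQ
  rw [hiff]
  show 1 ≤ v (N.X x) ↔ _
  rw [← not_lt]
  refine not_congr ⟨fun hX => ?_, fun ⟨h4, h3⟩ => ?_⟩
  · have hY := y_lt_one N.ha (N.onNode h.left) hX
    constructor
    · refine Valuation.map_sub_lt v hY ?_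
      rw [map_mul, map_pow]
      exact (mul_le_of_le_one_left zero_le (v_ofNat_le_one v 3)).trans_lt
        (pow_lt_one₀ zero_le hX two_ne_zero)
    · refine Valuation.map_add_lt v ?_ hX
      rw [map_mul]; exact (mul_le_of_le_one_left zero_le (v_ofNat_le_one v 2)).trans_lt hY
  · have hX1 : v (N.X x) ≤ 1 := by
      rw [N.v_X]; exact Valuation.map_sub_le v hx N.hr
    by_contra hcon
    have hX : v (N.X x) = 1 := le_antisymm hX1 (not_lt.1 hcon)
    set X₀ := N.X x
    set Y₀ := N.Y x y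
    have honN : Y₀ * (X₀ + Y₀) = X₀ ^ 3 + N.a := N.onNode h.left
    have hlin : v (X₀ * (1 + 6 * X₀)) < 1 := by
      rw [show X₀ * (1 + 6 * X₀) = (2 * Y₀ + X₀) - 2 * (Y₀ - 3 * X₀ ^ 2) by ring]
      refine Valuation.map_sub_lt v h3 ?_
      rw [map_mul]; exact (mul_le_of_le_one_left zero_le (v_ofNat_le_one v 2)).trans_lt h4
    rw [map_mul, hX, one_mul] at hlin
    have hY1 : v Y₀ ≤ 1 := by
      rw [show Y₀ = (Y₀ - 3 * X₀ ^ 2) + 3 * X₀ ^ 2 by ring]
      refine Valuation.map_add_le v h4.le ?_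
      rw [map_mul, map_pow, hX, one_pow, mul_one]; exact v_ofNat_le_one v 3
    have hcub : v (X₀ ^ 3 * (9 * X₀ + 2)) < 1 := by
      have e : X₀ ^ 3 * (9 * X₀ + 2) =
          N.a - (Y₀ - 3 * X₀ ^ 2) * (X₀ + Y₀ + 3 * X₀ ^ 2) := by
        linear_combination honN
      rw [e]
      refine Valuation.map_sub_lt v N.ha ?_
      rw [map_mul]
      refine (mul_le_of_le_one_right zero_le ?_).trans_lt h4
      refine Valuation.map_add_le v (Valuation.map_add_le v hX1 hY1) ?_
      rw [map_mul, map_pow, hX, one_pow, mul_one]; exact v_ofNat_le_one v 3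
    rw [map_mul, map_pow, hX, one_pow, one_mul] at hcub
    have h1 : v (1 : K) < 1 := by
      rw [show (1 : K) = 2 * (9 * X₀ + 2) - 3 * (1 + 6 * X₀) by ring]
      refine Valuation.map_sub_lt v ?_ ?_ <;> rw [map_mul]
      · exact (mul_le_of_le_one_left zero_le (v_ofNat_le_one v 2)).trans_lt hcub
      · exact (mul_le_of_le_one_left zero_le (v_ofNat_le_one v 3)).trans_lt hlin
    rw [map_one] at h1
    exact lt_irrefl _ h1

lemma good_some_of_gt {x y : K} (h : V.toAffine.Nonsingular x y) (hx : 1 < v x) :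
    N.Good (.some x y h) := by
  show 1 ≤ v (N.X x)
  rw [N.v_X_of_gt hx]; exact hx.le

variable [CharZero K]

/-- A field automorphism fixing the coefficients and acting trivially modulo the maximal ideal
fixes the normal form. -/
lemma fixed (σ : K →+* K) (h₁ : σ V.a₁ = V.a₁) (h₂ : σ V.a₂ = V.a₂) (h₃ : σ V.a₃ = V.a₃)
    (h₄ : σ V.a₄ = V.a₄) (h₆ : σ V.a₆ = V.a₆)
    (hσ : ∀ x : K, v x ≤ 1 → v (σ x - x) < 1) :
    σ N.r = N.r ∧ σ N.s = N.s ∧ σ N.t = N.t ∧ σ N.u = N.u ∧ σ N.a = N.a := by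
  have e₁ := congrArg σ N.eq₁
  have e₂ := congrArg σ N.eq₂
  have e₃ := congrArg σ N.eq₃
  have e₄ := congrArg σ N.eq₄
  have e₆ := congrArg σ N.eq₆
  simp only [map_add, map_sub, map_mul, map_pow, map_ofNat, map_zero, h₁, h₂, h₃, h₄, h₆]
    at e₁ e₂ e₃ e₄ e₆
  have hu2 : N.u ^ 2 = V.a₁ ^ 2 + 4 * V.a₂ + 12 * N.r := by
    linear_combination -(V.a₁ + 2 * N.s + N.u) * N.eq₁ - 4 * N.eq₂
  have hrfac : (σ N.r - N.r) * (V.a₁ ^ 2 + 4 * V.a₂ + 6 * (σ N.r + N.r)) = 0 := by
    linear_combination 2 * e₄ + (V.a₁ + 2 * σ N.s) * e₃ - 2 * N.eq₄ - (V.a₁ + 2 * N.s) * N.eq₃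
  have hunit : V.a₁ ^ 2 + 4 * V.a₂ + 6 * (σ N.r + N.r) ≠ 0 := by
    intro h0
    have h6 : v (6 * (σ N.r - N.r)) < 1 := by
      rw [map_mul]; exact (mul_le_of_le_one_left zero_le (v_ofNat_le_one v 6)).trans_lt (hσ _ N.hr)
    have e : v (N.u ^ 2 + 6 * (σ N.r - N.r)) = 1 := by
      rw [Valuation.map_add_eq_of_lt_left v] <;> rw [map_pow, N.hu, one_pow]
      exact h6
    rw [hu2, show V.a₁ ^ 2 + 4 * V.a₂ + 12 * N.r + 6 * (σ N.r - N.r) = 0 by
      linear_combination h0, map_zero] at e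
    exact zero_ne_one e
  have hr : σ N.r = N.r := sub_eq_zero.1 ((mul_eq_zero.1 hrfac).resolve_right hunit)
  have hsfac : (σ N.s - N.s) * (V.a₁ + σ N.s + N.s) = 0 := by
    linear_combination N.eq₂ - e₂ + 3 * hr
  have hs : σ N.s = N.s := by
    refine sub_eq_zero.1 ((mul_eq_zero.1 hsfac).resolve_right fun h0 => ?_)
    have e : v (N.u + (σ N.s - N.s)) = 1 := by
      rw [Valuation.map_add_eq_of_lt_left v] <;> rw [N.hu]
      exact hσ _ N.hs
    rw [show N.u + (σ N.s - N.s) = 0 by linear_combination h0 - N.eq₁, map_zero] at e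
    exact zero_ne_one e
  have hu : σ N.u = N.u := by linear_combination 2 * hs + N.eq₁ - e₁
  have ht : σ N.t = N.t := by
    refine mul_left_cancel₀ (two_ne_zero : (2 : K) ≠ 0) ?_
    linear_combination e₃ - N.eq₃ - V.a₁ * hr
  refine ⟨hr, hs, ht, hu, ?_⟩
  rw [hr, ht, hu] at e₆
  refine mul_left_cancel₀ (pow_ne_zero 6 N.u_ne_zero) ?_
  rw [← e₆, ← N.eq₆]

end NodeData

section exists_

variable [IsAlgClosed K] [CharZero K]

lemma exists_root_le_one {α β γ : K} (_hα : v α ≤ 1) (hγ : v γ ≤ 1)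
    (hα0 : α ≠ 0) (h : v β = 1 ∨ v β ≤ 1 ∧ v α = 1) :
    ∃ x : K, v x ≤ 1 ∧ α * x ^ 2 + β * x + γ = 0 := by
  obtain ⟨d, hd⟩ := IsAlgClosed.exists_pow_nat_eq (β ^ 2 - 4 * α * γ) (n := 2) two_pos
  set x₁ := (-β + d) / (2 * α) with hx₁
  set x₂ := (-β - d) / (2 * α) with hx₂
  have r₁ : α * x₁ ^ 2 + β * x₁ + γ = 0 := by
    rw [hx₁]; field_simp; linear_combination hd
  have r₂ : α * x₂ ^ 2 + β * x₂ + γ = 0 := by
    rw [hx₂]; field_simp; linear_combination hd
  have hsum : β = -(α * (x₁ + x₂)) := by rw [hx₁, hx₂]; field_simp; ring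
  have hprod : γ = α * (x₁ * x₂) := by
    rw [hx₁, hx₂]; field_simp; linear_combination hd
  by_cases h1 : v x₁ ≤ 1
  · exact ⟨x₁, h1, r₁⟩
  refine ⟨x₂, ?_, r₂⟩
  by_contra h2
  rw [not_le] at h1 h2
  have hmax : v (x₁ + x₂) < v (x₁ * x₂) := by
    rw [map_mul]
    exact Valuation.map_add_lt v (lt_mul_of_one_lt_right (zero_lt_one.trans h1) h2)
      (lt_mul_of_one_lt_left (zero_lt_one.trans h2) h1)
  have hα' : 0 < v α := zero_lt_iff.2 ((map_ne_zero v).2 hα0)
  rcases h with hb | ⟨-, ha1⟩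
  · have : v β < v γ := by
      rw [hsum, hprod, Valuation.map_neg, map_mul, map_mul]
      exact mul_lt_mul_of_pos_left hmax hα'
    rw [hb] at this
    exact absurd hγ (not_le.2 this)
  · rw [hprod, map_mul, map_mul, ha1, one_mul] at hγ
    exact absurd hγ (not_le.2 (one_lt_mul h1.le h2))

/-- Existence of the nodal normal form when `c₄` is a unit and `Δ` is not. -/
theorem exists_nodeData (v : Valuation K Γ₀) (V : WeierstrassCurve K)
    (h₁ : v V.a₁ ≤ 1) (h₂ : v V.a₂ ≤ 1) (h₃ : v V.a₃ ≤ 1) (h₄ : v V.a₄ ≤ 1) (h₆ : v V.a₆ ≤ 1)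
    (hc : v V.c₄ = 1) (hΔ : v V.Δ < 1) (hΔ0 : V.Δ ≠ 0) : Nonempty (NodeData v V) := by
  have hn := fun n : ℕ => natCast_le_one v n
  have hb₂ : v V.b₂ ≤ 1 := by
    refine Valuation.map_add_le v ?_ ?_
    · rw [map_pow]; exact pow_le_one₀ zero_le h₁
    · rw [map_mul]; exact mul_le_one₀ (v_ofNat_le_one v 4) zero_le h₂
  have hb₄ : v V.b₄ ≤ 1 := by
    refine Valuation.map_add_le v ?_ ?_ <;> rw [map_mul]
    · exact mul_le_one₀ (v_ofNat_le_one v 2) zero_le h₄
    · exact mul_le_one₀ h₁ zero_le h₃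
  have hdich : v V.b₂ = 1 ∨ v V.b₂ ≤ 1 ∧ v (6 : K) = 1 := by
    rcases hb₂.eq_or_lt with hb | hb
    · exact Or.inl hb
    refine Or.inr ⟨hb₂, eq_one_of_mul_eq_one (v_ofNat_le_one v 6)
      (β := v (4 * V.b₄)) ?_ ?_⟩
    · rw [map_mul]; exact mul_le_one₀ (v_ofNat_le_one v 4) zero_le hb₄
    · rw [← map_mul, show (6 : K) * (4 * V.b₄) = V.b₂ ^ 2 - V.c₄ by rw [WeierstrassCurve.c₄]; ring,
        Valuation.map_sub_eq_of_lt_right v, hc]
      rw [hc, map_pow]; exact pow_lt_one₀ zero_le hb two_ne_zero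
  obtain ⟨r₀, hr₀, hroot⟩ :=
    exists_root_le_one (v_ofNat_le_one v 6) hb₄ (by norm_num : (6 : K) ≠ 0) hdich
  -- the two critical points
  have crit : ∀ r : K, v r ≤ 1 → 6 * r ^ 2 + V.b₂ * r + V.b₄ = 0 →
      v (-(V.a₁ * r + V.a₃) / 2) ≤ 1 ∧
      v (V.a₁ ^ 2 + 4 * (V.a₂ + 3 * r)) = 1 := by
    intro r hr hr0
    simp only [WeierstrassCurve.b₂, WeierstrassCurve.b₄] at hr0
    constructor
    · set t := -(V.a₁ * r + V.a₃) / 2 with ht
      have h2t : v (2 * t) ≤ 1 := by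
        rw [show 2 * t = -(V.a₁ * r + V.a₃) by rw [ht]; ring, Valuation.map_neg]
        exact Valuation.map_add_le v (by rw [map_mul]; exact mul_le_one₀ h₁ zero_le hr) h₃
      have h1t : v (V.a₁ * t) ≤ 1 := by
        rw [show V.a₁ * t = 3 * r ^ 2 + 2 * V.a₂ * r + V.a₄ by
          rw [ht]; linear_combination (-1 / 2) * hr0]
        refine Valuation.map_add_le v (Valuation.map_add_le v ?_ ?_) h₄
        · rw [map_mul, map_pow]; exact mul_le_one₀ (v_ofNat_le_one v 3) zero_le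
            (pow_le_one₀ zero_le hr)
        · rw [map_mul, map_mul]
          exact mul_le_one₀ (mul_le_one₀ (v_ofNat_le_one v 2) zero_le h₂) zero_le hr
      have hc4t : v (V.c₄ * t) ≤ 1 := by
        rw [show V.c₄ * t = V.b₂ * (V.a₁ * (V.a₁ * t)) + V.b₂ * (2 * V.a₂ * (2 * t)) -
            12 * V.b₄ * (2 * t) by simp only [WeierstrassCurve.c₄, WeierstrassCurve.b₂]; ring]
        refine Valuation.map_sub_le v (Valuation.map_add_le v ?_ ?_) ?_
        · rw [map_mul, map_mul]; exact mul_le_one₀ hb₂ zero_le (mul_le_one₀ h₁ zero_le h1t)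
        · rw [map_mul, map_mul, map_mul]
          exact mul_le_one₀ hb₂ zero_le
            (mul_le_one₀ (mul_le_one₀ (v_ofNat_le_one v 2) zero_le h₂) zero_le h2t)
        · rw [map_mul, map_mul]
          exact mul_le_one₀ (mul_le_one₀ (v_ofNat_le_one v 12) zero_le hb₄) zero_le h2t
      rwa [map_mul, hc, one_mul] at hc4t
    · refine (pow_left_inj₀ zero_le zero_le (two_ne_zero : (2 : ℕ) ≠ 0)).1 ?_
      rw [one_pow, ← map_pow, ← hc]
      congr 1
      simp only [WeierstrassCurve.c₄, WeierstrassCurve.b₂, WeierstrassCurve.b₄]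
      linear_combination 24 * hr0
  let eVal : K → K := fun r => V.a₆ + r * V.a₄ + r ^ 2 * V.a₂ + r ^ 3
    - (-(V.a₁ * r + V.a₃) / 2) * V.a₃ - (-(V.a₁ * r + V.a₃) / 2) ^ 2
    - r * (-(V.a₁ * r + V.a₃) / 2) * V.a₁
  have hΔe : ∀ r : K, 6 * r ^ 2 + V.b₂ * r + V.b₄ = 0 →
      V.Δ = -(eVal r * ((V.a₁ ^ 2 + 4 * (V.a₂ + 3 * r)) ^ 3 + 432 * eVal r)) := by
    intro r hr0
    set t := -(V.a₁ * r + V.a₃) / 2 with ht
    have hC : ((⟨1, r, 0, t⟩ : VariableChange K) • V) =
        ⟨V.a₁, V.a₂ + 3 * r, 0, 0, eVal r⟩ := by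
      simp only [WeierstrassCurve.b₂, WeierstrassCurve.b₄] at hr0
      ext <;> simp only [variableChange_a₁, variableChange_a₂, variableChange_a₃,
        variableChange_a₄, variableChange_a₆, inv_one, Units.val_one, one_pow, one_mul, eVal]
      · ring
      · ring
      · rw [ht]; ring
      · rw [ht]; linear_combination (1 / 2) * hr0
      · rw [ht]
    have h := congrArg WeierstrassCurve.Δ hC
    rw [variableChange_Δ] at h
    simp only [inv_one, Units.val_one, one_pow, one_mul] at h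
    rw [h]
    simp only [WeierstrassCurve.Δ, WeierstrassCurve.b₂, WeierstrassCurve.b₄, WeierstrassCurve.b₆,
      WeierstrassCurve.b₈]
    ring
  have pick : ∃ r : K, v r ≤ 1 ∧ 6 * r ^ 2 + V.b₂ * r + V.b₄ = 0 ∧ v (eVal r) < 1 := by
    have he_le : v (eVal r₀) ≤ 1 := by
      have ht := (crit r₀ hr₀ hroot).1
      refine Valuation.map_sub_le v (Valuation.map_sub_le v (Valuation.map_sub_le v
        (Valuation.map_add_le v (Valuation.map_add_le v (Valuation.map_add_le v h₆ ?_) ?_) ?_)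
        ?_) ?_) ?_
      · rw [map_mul]; exact mul_le_one₀ hr₀ zero_le h₄
      · rw [map_mul, map_pow]; exact mul_le_one₀ (pow_le_one₀ zero_le hr₀) zero_le h₂
      · rw [map_pow]; exact pow_le_one₀ zero_le hr₀
      · rw [map_mul]; exact mul_le_one₀ ht zero_le h₃
      · rw [map_pow]; exact pow_le_one₀ zero_le ht
      · rw [map_mul, map_mul]; exact mul_le_one₀ (mul_le_one₀ hr₀ zero_le ht) zero_le h₁
    rcases he_le.lt_or_eq with he | he
    · exact ⟨r₀, hr₀, hroot, he⟩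
    set B := V.a₁ ^ 2 + 4 * (V.a₂ + 3 * r₀) with hB
    have hBv : v B = 1 := (crit r₀ hr₀ hroot).2
    have hbig : v (B ^ 3 + 432 * eVal r₀) < 1 := by
      have := hΔ
      rwa [hΔe r₀ hroot, Valuation.map_neg, map_mul, he, one_mul] at this
    have h432 : v (432 * eVal r₀) = 1 := by
      rw [show (432 * eVal r₀) = (B ^ 3 + 432 * eVal r₀) - B ^ 3 by ring,
        Valuation.map_sub_eq_of_lt_right v] <;> rw [map_pow, hBv, one_pow]
      exact hbig
    rw [map_mul, he, mul_one] at h432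
    have h6 : v (6 : K) = 1 := by
      refine eq_one_of_mul_eq_one (v_ofNat_le_one v 6) (v_ofNat_le_one v 72) ?_
      rw [← map_mul, ← h432]; norm_num
    refine ⟨r₀ - B / 6, Valuation.map_sub_le v hr₀ ?_, ?_, ?_⟩
    · rw [map_div₀, hBv, h6, div_one]
    · rw [hB]; simp only [WeierstrassCurve.b₂] at hroot ⊢
      field_simp
      linear_combination 6 * hroot
    · have e : eVal (r₀ - B / 6) = (B ^ 3 + 432 * eVal r₀) / 432 := by
        simp only [WeierstrassCurve.b₂, WeierstrassCurve.b₄] at hroot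
        rw [eq_div_iff (by norm_num)]
        simp only [eVal, hB]
        linear_combination (-(36 : K) * (V.a₁ ^ 2 + 4 * (V.a₂ + 3 * r₀))) * hroot
      rw [e, map_div₀, h432, div_one]
      exact hbig
  obtain ⟨r, hr, hr0, he⟩ := pick
  obtain ⟨ht, hB⟩ := crit r hr hr0
  obtain ⟨s, hs, hs0⟩ := exists_root_le_one (v := v) (α := 1) (β := V.a₁) (γ := -(V.a₂ + 3 * r))
    (map_one v).le (by
      rw [Valuation.map_neg]
      refine Valuation.map_add_le v h₂ ?_
      rw [map_mul]; exact mul_le_one₀ (v_ofNat_le_one v 3) zero_le hr)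
    one_ne_zero (Or.inr ⟨h₁, map_one v⟩)
  have hu2 : (V.a₁ + 2 * s) ^ 2 = V.a₁ ^ 2 + 4 * (V.a₂ + 3 * r) := by linear_combination 4 * hs0
  have hu : v (V.a₁ + 2 * s) = 1 :=
    (pow_left_inj₀ zero_le zero_le (two_ne_zero : (2 : ℕ) ≠ 0)).1
      (by rw [one_pow, ← map_pow, hu2, hB])
  have hu0 : V.a₁ + 2 * s ≠ 0 := fun h => by simp [h] at hu
  have he0 : eVal r ≠ 0 := fun h => hΔ0 (by rw [hΔe r hr0, h, zero_mul, neg_zero])
  refine ⟨{ u := V.a₁ + 2 * s, r := r, s := s, t := -(V.a₁ * r + V.a₃) / 2,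
            a := eVal r / (V.a₁ + 2 * s) ^ 6,
            hu := hu, hr := hr, hs := hs, ht := ht, ha₀ := ?_, ha := ?_,
            eq₁ := rfl, eq₂ := ?_, eq₃ := ?_, eq₄ := ?_, eq₆ := ?_ }⟩
  · exact div_ne_zero he0 (pow_ne_zero _ hu0)
  · rw [map_div₀, map_pow, hu, one_pow, div_one]; exact he
  · linear_combination -hs0
  · ring
  · simp only [WeierstrassCurve.b₂, WeierstrassCurve.b₄] at hr0
    linear_combination (1 / 2) * hr0
  · rw [mul_div_cancel₀ _ (pow_ne_zero _ hu0)]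

end exists_

end Fermat.Agent.Multiplicative
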