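import Mathlib.FieldTheory.IsAlgClosed.AlgebraicClosure
import Mathlib.NumberTheory.Padics.PadicVal.Basic
import Fermat.Agent.Gal.Places
import Fermat.Agent.EC.Reduction.Galois
/-!
# The valuation of a place over a prime

Elementary facts about the valuation of a place of `ℚ̄` over a prime.
-/

set_option autoImplicit false

namespace Fermat.Agent.Multiplicative

open Fermat.Agent.EC.Reduction

local notation "Qbar" => AlgebraicClosure ℚ

variable {A : ValuationSubring Qbar} {q : ℕ}

lemma v_intCast_le_one (A : ValuationSubring Qbar) (m : ℤ) : A.valuation (m : Qbar) ≤ 1 :=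
  (A.valuation_le_one_iff _).2 (intCast_mem A m)

lemma v_prime_lt_one (hA : A.LiesOverPrime q) : A.valuation (q : Qbar) < 1 :=
  A.mem_nonunits_iff.1 hA

lemma v_prime_pos (hq : q.Prime) : 0 < A.valuation (q : Qbar) :=
  zero_lt_iff.2 ((map_ne_zero _).2 (Nat.cast_ne_zero.2 hq.ne_zero))

lemma v_lt_one_iff_res {z : Qbar} :
    A.valuation z < 1 ↔ Res (IsLocalRing.residue A) z 0 := by
  constructor
  · intro h
    refine ⟨A.mem_of_valuation_le_one z h.le, (IsLocalRing.residue_eq_zero_iff _).2 ?_⟩
    exact (A.valuation_lt_one_iff _).2 h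
  · rintro ⟨h, h0⟩
    exact (A.valuation_lt_one_iff ⟨z, h⟩).1 ((IsLocalRing.residue_eq_zero_iff _).1 h0)

lemma v_intCast_lt_one_iff (hq : q.Prime) (hA : A.LiesOverPrime q) {m : ℤ} :
    A.valuation (m : Qbar) < 1 ↔ (q : ℤ) ∣ m := by
  have := charP_of_liesOverPrime (IsLocalRing.residue A) hq hA
  rw [v_lt_one_iff_res, ← CharP.intCast_eq_zero_iff (IsLocalRing.ResidueField A) q]
  exact ⟨fun h => (h.unique (Res.intCast m)).symm, fun h => h ▸ Res.intCast m⟩

lemma v_intCast_eq_one (hq : q.Prime) (hA : A.LiesOverPrime q) {m : ℤ} (hm : ¬ (q : ℤ) ∣ m) :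
    A.valuation (m : Qbar) = 1 :=
  (v_intCast_le_one A m).antisymm
    (not_lt.1 fun h => hm ((v_intCast_lt_one_iff hq hA).1 h))

lemma v_natCast_eq_one (hq : q.Prime) (hA : A.LiesOverPrime q) {n : ℕ} (hn : ¬ q ∣ n) :
    A.valuation (n : Qbar) = 1 := by
  simpa using v_intCast_eq_one hq hA (m := (n : ℤ)) (by exact_mod_cast hn)

lemma v_intCast_eq (hq : q.Prime) (hA : A.LiesOverPrime q) {m : ℤ} (hm : m ≠ 0) :
    A.valuation (m : Qbar) = A.valuation (q : Qbar) ^ padicValInt q m := by
  have : Fact q.Prime := ⟨hq⟩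
  obtain ⟨c, hc⟩ : (q : ℤ) ^ padicValInt q m ∣ m := padicValInt_dvd m
  have hcq : ¬ (q : ℤ) ∣ c := fun hd => by
    have h1 : (q : ℤ) ^ (padicValInt q m + 1) ∣ m := by
      rw [pow_succ]; exact (mul_dvd_mul_left _ hd).trans (dvd_of_eq hc.symm)
    rw [padicValInt_dvd_iff] at h1
    rcases h1 with h1 | h1
    · exact hm h1
    · omega
  calc A.valuation (m : Qbar) = A.valuation ((((q : ℤ) ^ padicValInt q m * c : ℤ)) : Qbar) := by
        rw [← hc]
    _ = A.valuation (q : Qbar) ^ padicValInt q m := by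
        push_cast
        rw [map_mul, map_pow, v_intCast_eq_one hq hA hcq, mul_one]

lemma v_ratCast_eq (hq : q.Prime) (hA : A.LiesOverPrime q) {r : ℚ} (hr : r ≠ 0) :
    ∃ j : ℤ, A.valuation (r : Qbar) = A.valuation (q : Qbar) ^ j := by
  refine ⟨(padicValInt q r.num : ℤ) - (padicValInt q r.den : ℤ), ?_⟩
  rw [Rat.cast_def, map_div₀, v_intCast_eq hq hA (Rat.num_ne_zero.2 hr),
    show ((r.den : ℕ) : Qbar) = ((r.den : ℤ) : Qbar) by simp,
    v_intCast_eq hq hA (by exact_mod_cast r.den_nz), zpow_sub₀ (v_prime_pos hq).ne',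
    zpow_natCast, zpow_natCast]

/-- Elements of the decomposition group preserve the valuation. -/
lemma v_apply {σ : Qbar ≃ₐ[ℚ] Qbar} (hσ : σ ∈ A.decompositionSubgroup ℚ) (z : Qbar) :
    A.valuation (σ z) = A.valuation z := by
  have mono : ∀ a b : Qbar, A.valuation a ≤ A.valuation b →
      A.valuation (σ a) ≤ A.valuation (σ b) := by
    intro a b hab
    obtain ⟨c, rfl⟩ := (A.valuation_le_iff a b).1 hab
    rw [map_mul, map_mul]
    exact mul_le_of_le_one_left zero_le
      ((A.valuation_le_one_iff _).2 (apply_mem_of_mem_decomposition hσ c.2))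
  have smono : ∀ a b : Qbar, A.valuation a < A.valuation b →
      A.valuation (σ a) < A.valuation (σ b) := by
    intro a b hab
    by_contra hcon
    obtain ⟨c, hc⟩ := (A.valuation_le_iff (σ b) (σ a)).1 (not_lt.1 hcon)
    have hmem : σ.symm (c : Qbar) ∈ A := by
      rw [← apply_mem_iff_of_mem_decomposition hσ, AlgEquiv.apply_symm_apply]; exact c.2
    have hb : σ.symm (c : Qbar) * a = b := σ.injective (by simp [map_mul, hc])
    rw [← hb, map_mul] at hab
    exact absurd hab (not_lt.2 (mul_le_of_le_one_left zero_le ((A.valuation_le_one_iff _).2 hmem)))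
  -- the orbit of `z` is finite
  have hroot : ∀ i : ℕ, (σ ^ i) z ∈ (minpoly ℚ z).rootSet Qbar := fun i => by
    rw [Polynomial.mem_rootSet_of_ne
      (minpoly.ne_zero (Algebra.IsIntegral.isIntegral (R := ℚ) z)),
      Polynomial.aeval_algHom_apply, minpoly.aeval, map_zero]
  obtain ⟨i, j, hij, heq⟩ : ∃ i j : ℕ, i < j ∧ (σ ^ i) z = (σ ^ j) z := by
    by_contra hcon
    push Not at hcon
    have hinj : Function.Injective fun i : ℕ => (σ ^ i) z := by
      intro i j hij
      rcases lt_trichotomy i j with h | h | h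
      · exact absurd hij (hcon i j h)
      · exact h
      · exact absurd hij.symm (hcon j i h)
    exact (Set.infinite_of_injective_forall_mem hinj hroot) (Polynomial.rootSet_finite _ _)
  obtain ⟨m, rfl⟩ : ∃ m, j = i + (m + 1) := ⟨j - i - 1, by omega⟩
  have hz : (σ ^ (m + 1)) z = z := by
    rw [pow_add, AlgEquiv.mul_apply] at heq
    exact ((σ ^ i).injective heq).symm
  rcases lt_trichotomy (A.valuation (σ z)) (A.valuation z) with h | h | h
  · have : ∀ k : ℕ, A.valuation ((σ ^ (k + 1)) z) < A.valuation z := by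
      intro k
      induction k with
      | zero => simpa using h
      | succ k ih =>
        rw [pow_succ', AlgEquiv.mul_apply]
        exact (smono _ _ ih).trans h
    exact absurd (this m) (by rw [hz]; exact lt_irrefl _)
  · exact h
  · have : ∀ k : ℕ, A.valuation z < A.valuation ((σ ^ (k + 1)) z) := by
      intro k
      induction k with
      | zero => simpa using h
      | succ k ih =>
        rw [pow_succ', AlgEquiv.mul_apply]
        exact h.trans (smono _ _ ih)
    exact absurd (this m) (by rw [hz]; exact lt_irrefl _)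

/-- Inertia elements are congruent to the identity modulo the maximal ideal. -/
lemma v_inertia_sub {σ : Qbar ≃ₐ[ℚ] Qbar} (hσ : σ ∈ A.inertiaSubgroupIn ℚ) {z : Qbar}
    (hz : A.valuation z ≤ 1) : A.valuation (σ z - z) < 1 := by
  rw [v_lt_one_iff_res]
  have h := Res.of_mem (IsLocalRing.residue A) ((A.valuation_le_one_iff z).1 hz)
  simpa using (res_inertia hσ h).sub h

end Fermat.Agent.Multiplicative
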