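import Mathlib.RingTheory.RootsOfUnity.PrimitiveRoots
import Fermat.Agent.Multiplicative.NodeExists
import Fermat.Agent.Multiplicative.Valuation
/-!
# Multiplicative reduction at a place of the algebraic numbers

Multiplicative reduction of an integral Weierstrass curve at a place of `ℚ̄`: the component
homomorphism, the action of inertia on it, and unramifiedness of `E[p]` when `p ∣ v_q(Δ)`.
-/

set_option autoImplicit false

namespace Fermat.Agent.Multiplicative

open WeierstrassCurve Fermat.Agent.EC.Reduction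
open scoped WeierstrassCurve.Affine

local notation "Qbar" => AlgebraicClosure ℚ
local notation "ΓQ" => (AlgebraicClosure ℚ ≃ₐ[ℚ] AlgebraicClosure ℚ)

/-- Hypotheses of multiplicative reduction of `W` at the place `A` over `q`. -/
structure MultAt (W : WeierstrassCurve ℤ) (A : ValuationSubring Qbar) (q : ℕ) : Prop where
  prime : q.Prime
  liesOver : A.LiesOverPrime q
  dvd_Δ : (q : ℤ) ∣ W.Δ
  not_dvd_c₄ : ¬ (q : ℤ) ∣ W.c₄
  Δ_ne_zero : W.Δ ≠ 0

variable {W : WeierstrassCurve ℤ} {A : ValuationSubring Qbar} {q : ℕ}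

local notation "EQ" W => ((WeierstrassCurve.map W (Int.castRingHom ℚ))⁄(AlgebraicClosure ℚ))

lemma coeff₁ : (EQ W).a₁ = (W.a₁ : Qbar) := by simp [WeierstrassCurve.baseChange]
lemma coeff₂ : (EQ W).a₂ = (W.a₂ : Qbar) := by simp [WeierstrassCurve.baseChange]
lemma coeff₃ : (EQ W).a₃ = (W.a₃ : Qbar) := by simp [WeierstrassCurve.baseChange]
lemma coeff₄ : (EQ W).a₄ = (W.a₄ : Qbar) := by simp [WeierstrassCurve.baseChange]
lemma coeff₆ : (EQ W).a₆ = (W.a₆ : Qbar) := by simp [WeierstrassCurve.baseChange]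
lemma coeffΔ : (EQ W).Δ = (W.Δ : Qbar) := by simp [WeierstrassCurve.baseChange]
lemma coeffc₄ : (EQ W).c₄ = (W.c₄ : Qbar) := by simp [WeierstrassCurve.baseChange]

namespace MultAt

lemma nonempty_nodeData (h : MultAt W A q) : Nonempty (NodeData A.valuation (EQ W)) := by
  refine exists_nodeData _ _ ?_ ?_ ?_ ?_ ?_ ?_ ?_ ?_
  · rw [coeff₁]; exact v_intCast_le_one A _
  · rw [coeff₂]; exact v_intCast_le_one A _
  · rw [coeff₃]; exact v_intCast_le_one A _
  · rw [coeff₄]; exact v_intCast_le_one A _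
  · rw [coeff₆]; exact v_intCast_le_one A _
  · rw [coeffc₄]; exact v_intCast_eq_one h.prime h.liesOver h.not_dvd_c₄
  · rw [coeffΔ]; exact (v_intCast_lt_one_iff h.prime h.liesOver).2 h.dvd_Δ
  · rw [coeffΔ, Int.cast_ne_zero]; exact h.Δ_ne_zero

/-- The chosen nodal normal form. -/
noncomputable def node (h : MultAt W A q) : NodeData A.valuation (EQ W) :=
  Classical.choice h.nonempty_nodeData

lemma v_a (h : MultAt W A q) :
    A.valuation h.node.a = A.valuation (q : Qbar) ^ padicValInt q W.Δ := by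
  rw [h.node.v_a_eq, coeffΔ, v_intCast_eq h.prime h.liesOver h.Δ_ne_zero]

variable (h : MultAt W A q)
include h

/-- The identity component of the prelude is the group of good points. -/
lemma inZeroComponentAt_iff_mem_E0 (P : (EQ W).Point) :
    W.InZeroComponentAt A P ↔ P ∈ h.node.E0 := by
  rw [NodeData.mem_E0]
  cases P with
  | zero => exact iff_of_true (Or.inl rfl) trivial
  | some x y hP =>
    by_cases hx : x ∈ A
    swap
    · refine iff_of_true (Or.inr ⟨x, y, hP, rfl, Or.inl hx⟩) ?_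
      exact h.node.good_some_of_gt hP
        (lt_of_not_ge fun hle => hx ((A.valuation_le_one_iff x).1 hle))
    have hx1 : A.valuation x ≤ 1 := (A.valuation_le_one_iff x).2 hx
    set π := IsLocalRing.residue A
    have ha₁ : A.valuation (EQ W).a₁ ≤ 1 := by rw [coeff₁]; exact v_intCast_le_one A _
    have ha₃ : A.valuation (EQ W).a₃ ≤ 1 := by rw [coeff₃]; exact v_intCast_le_one A _
    have hy : y ∈ A := Reduces.y_mem (reduces_intModel W π) hP.left hx
    have hy1 : A.valuation y ≤ 1 := (A.valuation_le_one_iff y).2 hy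
    rw [h.node.good_some_iff ha₁ ha₃ hP hx1 hy1]
    have rx := Res.of_mem π hx
    have ry := Res.of_mem π hy
    have r1 : Res π ((EQ W).a₁ * y - (3 * x ^ 2 + 2 * (EQ W).a₂ * x + (EQ W).a₄))
        (((W.a₁ : ℤ) : IsLocalRing.ResidueField A) * π ⟨y, hy⟩ -
          (3 * π ⟨x, hx⟩ ^ 2 + 2 * (W.a₂ : IsLocalRing.ResidueField A) * π ⟨x, hx⟩ +
            (W.a₄ : IsLocalRing.ResidueField A))) := by
      rw [coeff₁, coeff₂, coeff₄]
      exact ((Res.intCast _).mul ry).sub
        ((((Res.ofNat 3).mul (rx.pow 2)).add (((Res.ofNat 2).mul (Res.intCast _)).mul rx)).add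
          (Res.intCast _))
    have r2 : Res π (2 * y + (EQ W).a₁ * x + (EQ W).a₃)
        (2 * π ⟨y, hy⟩ + (W.a₁ : IsLocalRing.ResidueField A) * π ⟨x, hx⟩ +
          (W.a₃ : IsLocalRing.ResidueField A)) := by
      rw [coeff₁, coeff₃]
      exact (((Res.ofNat 2).mul ry).add ((Res.intCast _).mul rx)).add (Res.intCast _)
    rw [v_lt_one_iff_res, v_lt_one_iff_res]
    have hred := reduces_intModel W π
    have heq := Reduces.equation hred hP.left ⟨hx, rfl⟩ ⟨hy, rfl⟩
    constructor
    · rintro (h0 | ⟨x', y', h', he, hh⟩)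
      · exact absurd h0 (Affine.Point.some_ne_zero hP)
      obtain ⟨rfl, rfl⟩ := Affine.Point.some.inj he
      rcases hh with hh | ⟨hx', hy', hns⟩
      · exact absurd hx hh
      rintro ⟨z1, z2⟩
      have e1 := r1.unique z1
      have e2 := r2.unique z2
      rw [Affine.nonsingular_iff] at hns
      simp only [map_a₁, map_a₂, map_a₃, map_a₄, eq_intCast] at hns
      rcases hns.2 with hn | hn
      · exact hn (sub_eq_zero.1 e1)
      · exact hn (by linear_combination e2)
    · intro hns
      refine Or.inr ⟨x, y, hP, rfl, Or.inr ⟨hx, hy, ?_⟩⟩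
      rw [Affine.nonsingular_iff]
      refine ⟨heq, ?_⟩
      simp only [map_a₁, map_a₂, map_a₃, map_a₄, eq_intCast]
      by_contra hcon
      push Not at hcon
      refine hns ⟨?_, ?_⟩
      · convert r1 using 1; exact (sub_eq_zero.2 hcon.1).symm
      · convert r2 using 1; linear_combination -hcon.2

variable {σ : ΓQ} (hσ : σ ∈ A.inertiaSubgroupIn ℚ)
include hσ

lemma node_fixed : σ h.node.r = h.node.r ∧ σ h.node.s = h.node.s ∧ σ h.node.t = h.node.t ∧
    σ h.node.u = h.node.u ∧ σ h.node.a = h.node.a :=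
  h.node.fixed (σ : Qbar →+* Qbar) (by rw [coeff₁]; simp) (by rw [coeff₂]; simp)
    (by rw [coeff₃]; simp) (by rw [coeff₄]; simp) (by rw [coeff₆]; simp)
    (fun _ hx => v_inertia_sub hσ hx)

lemma X_apply (x : Qbar) : h.node.X (σ x) = σ (h.node.X x) := by
  obtain ⟨hr, -, -, hu, -⟩ := h.node_fixed hσ
  simp only [NodeData.X, map_div₀, map_sub, map_pow, hr, hu]

lemma Y_apply (x y : Qbar) : h.node.Y (σ x) (σ y) = σ (h.node.Y x y) := by
  obtain ⟨hr, hs, ht, hu, -⟩ := h.node_fixed hσ
  simp only [NodeData.Y, map_div₀, map_sub, map_mul, map_pow, hr, hs, ht, hu]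

lemma comp_smul (P : (EQ W).Point) : h.node.comp (σ • P) = h.node.comp P := by
  rcases P with _ | ⟨x, y, hP⟩
  · rfl
  rw [NodeData.comp_apply, NodeData.comp_apply, NodeData.cls, NodeData.cls]
  congr 2
  refine Units.ext ?_
  show wv A.valuation h.node.a (h.node.X (σ x)) (h.node.Y (σ x) (σ y)) =
    wv A.valuation h.node.a (h.node.X x) (h.node.Y x y)
  rw [h.X_apply hσ, h.Y_apply hσ]
  have hd := mem_decomposition_of_mem_inertia hσ
  simp only [wv, ← map_add, v_apply hd]

/-- Inertia moves points only inside the identity component. -/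
theorem smul_sub_mem_E0 (P : (EQ W).Point) : σ • P - P ∈ h.node.E0 := by
  rw [NodeData.E0, AddMonoidHom.mem_ker, map_sub, h.comp_smul hσ, sub_self]

/-- Inertia moves points only inside the identity component. -/
theorem smul_sub_inZeroComponentAt (P : (EQ W).Point) : W.InZeroComponentAt A (σ • P - P) :=
  (h.inZeroComponentAt_iff_mem_E0 _).2 (h.smul_sub_mem_E0 hσ P)

lemma phiPoint_smul (P : (EQ W).Point) : h.node.phiPoint (σ • P) = σ (h.node.phiPoint P) := by
  rcases P with _ | ⟨x, y, hP⟩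
  · exact (map_one σ).symm
  show phi (h.node.X (σ x)) (h.node.Y (σ x) (σ y)) = σ (phi (h.node.X x) (h.node.Y x y))
  rw [h.X_apply hσ, h.Y_apply hσ, phi, phi, map_div₀, map_add]

/-- On the identity component, inertia fixes a point as soon as it fixes a multiple of it by an
integer prime to `q`. -/
theorem smul_eq_of_nsmul_fixed {S : (EQ W).Point} (hS : S ∈ h.node.E0) {n : ℕ} (hn : ¬ q ∣ n)
    (hfix : σ • (n • S) = n • S) : σ • S = S := by
  set N := h.node
  have hσS : σ • S ∈ N.E0 := by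
    have := h.smul_sub_mem_E0 hσ S
    simpa using N.E0.add_mem this hS
  have hgood := N.mem_E0.1 hS
  rw [← sub_eq_zero]
  refine N.eq_zero_of_nsmul_eq_zero (N.E0.sub_mem hσS hS) ?_
    (v_natCast_eq_one h.prime h.liesOver hn) ?_
  · -- `φ (σS − S) ≡ φ (σS) / φ S ≡ 1`
    have h1 := N.phiPoint_add_lt_one hσS (N.E0.neg_mem hS)
    rw [← sub_eq_add_neg, N.phiPoint_neg hgood, h.phiPoint_smul hσ] at h1
    have hphi := N.v_phiPoint hgood
    have hne : N.phiPoint S ≠ 0 := by intro h0; simp [h0] at hphi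
    have h2 : A.valuation (σ (N.phiPoint S) * (N.phiPoint S)⁻¹ - 1) < 1 := by
      rw [show σ (N.phiPoint S) * (N.phiPoint S)⁻¹ - 1 =
          (σ (N.phiPoint S) - N.phiPoint S) * (N.phiPoint S)⁻¹ by field_simp,
        map_mul, map_inv₀, hphi, inv_one, mul_one]
      exact v_inertia_sub hσ hphi.le
    have h3 := Valuation.map_add_lt A.valuation h1 h2
    rwa [sub_add_sub_cancel] at h3
  · rw [nsmul_sub, smul_comm n σ S, hfix, sub_self]

end MultAt

/-! ### Torsion on the identity component -/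

namespace MultAt

variable (h : MultAt W A q)
include h

/-- The reduction character `E0 → k^×`, written additively. -/
noncomputable def red : h.node.E0 →+ Additive (IsLocalRing.ResidueField A) where
  toFun P := Additive.ofMul (IsLocalRing.residue A
    ⟨h.node.phiPoint P, (A.valuation_le_one_iff _).1 (h.node.v_phiPoint (h.node.mem_E0.1 P.2)).le⟩)
  map_zero' := congrArg Additive.ofMul
    ((congrArg (IsLocalRing.residue A) (Subtype.ext h.node.phiPoint_zero)).trans (map_one _))
  map_add' P Q := by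
    apply congrArg Additive.ofMul
    rw [← sub_eq_zero]
    simp only [toMul_ofMul, ← map_mul, ← map_sub, IsLocalRing.residue_eq_zero_iff]
    exact (A.valuation_lt_one_iff _).2 (h.node.phiPoint_add_lt_one P.2 Q.2)

lemma red_eq_zero_iff (P : h.node.E0) :
    h.red P = 0 ↔ A.valuation (h.node.phiPoint P - 1) < 1 := by
  have hm : h.node.phiPoint P ∈ A :=
    (A.valuation_le_one_iff _).1 (h.node.v_phiPoint (h.node.mem_E0.1 P.2)).le
  have : h.red P = Additive.ofMul (IsLocalRing.residue A ⟨h.node.phiPoint P, hm⟩) := rfl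
  rw [this, ofMul_eq_zero, ← sub_eq_zero, ← map_one (IsLocalRing.residue A), ← map_sub,
    IsLocalRing.residue_eq_zero_iff, A.valuation_lt_one_iff]
  rfl

lemma eq_zero_of_red_eq_zero {P : h.node.E0} (hr : h.red P = 0) {n : ℕ} (hn : ¬ q ∣ n)
    (hP : n • P = 0) : P = 0 :=
  Subtype.ext (h.node.eq_zero_of_nsmul_eq_zero P.2 ((h.red_eq_zero_iff P).1 hr)
    (v_natCast_eq_one h.prime h.liesOver hn) (by simpa using congrArg Subtype.val hP))

/-- For a prime `p ≠ q` the `p`-torsion of the identity component is cyclic. -/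
theorem exists_nsmul_eq_of_mem_E0 {p : ℕ} (hp : p.Prime) (hpq : p ≠ q) {T T' : (EQ W).Point}
    (hT : W.InZeroComponentAt A T) (hT' : W.InZeroComponentAt A T') (hpT : p • T = 0)
    (hpT' : p • T' = 0) (hT0 : T ≠ 0) : ∃ k : ℕ, T' = k • T := by
  have hn : ¬ q ∣ p := fun hd => hpq ((Nat.prime_dvd_prime_iff_eq h.prime hp).1 hd).symm
  let t : h.node.E0 := ⟨T, (h.inZeroComponentAt_iff_mem_E0 T).1 hT⟩
  let t' : h.node.E0 := ⟨T', (h.inZeroComponentAt_iff_mem_E0 T').1 hT'⟩
  have ht : p • t = 0 := Subtype.ext (by simpa [t] using hpT)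
  have ht' : p • t' = 0 := Subtype.ext (by simpa [t'] using hpT')
  have hζp : (h.red t).toMul ^ p = 1 := by
    rw [← toMul_nsmul, ← map_nsmul, ht, map_zero, toMul_zero]
  have hζ'p : (h.red t').toMul ^ p = 1 := by
    rw [← toMul_nsmul, ← map_nsmul, ht', map_zero, toMul_zero]
  have hζ1 : (h.red t).toMul ≠ 1 := fun h1 =>
    hT0 (congrArg Subtype.val (h.eq_zero_of_red_eq_zero (P := t) h1 hn ht))
  have : Fact p.Prime := ⟨hp⟩
  have hprim : IsPrimitiveRoot (h.red t).toMul p :=
    IsPrimitiveRoot.iff_orderOf.2 (orderOf_eq_prime hζp hζ1)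
  have : NeZero p := ⟨hp.ne_zero⟩
  obtain ⟨k, -, hk⟩ := hprim.eq_pow_of_pow_eq_one hζ'p
  refine ⟨k, ?_⟩
  have hred : h.red (t' - k • t) = 0 := by
    have e := congrArg Additive.toMul (congrArg h.red (sub_add_cancel t' (k • t)))
    rw [map_add, map_nsmul, toMul_add, toMul_nsmul, hk] at e
    have hne : (h.red t').toMul ≠ 0 := fun h0 => by simp [h0, hp.ne_zero] at hζ'p
    exact Additive.toMul.injective (mul_eq_right₀ hne |>.1 e)
  have := h.eq_zero_of_red_eq_zero hred hn
    (by rw [nsmul_sub, ht', smul_comm, ht, nsmul_zero, sub_zero])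
  exact congrArg Subtype.val (sub_eq_zero.1 this)

end MultAt

end Fermat.Agent.Multiplicative
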