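import Mathlib.FieldTheory.Galois.Infinite
import Fermat.Agent.Multiplicative.Qbar
/-!
# Inertia on torsion at multiplicative places

Consequences of the component homomorphism for torsion points: unramifiedness of `E[p]` when
`p ∣ v_q(Δ)`, rational torsion off the identity component, `q`-torsion on the identity component.
-/

set_option autoImplicit false

namespace Fermat.Agent.Multiplicative

open WeierstrassCurve Fermat.Agent.EC.Reduction
open scoped WeierstrassCurve.Affine

local notation "Qbar" => AlgebraicClosure ℚ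
local notation "ΓQ" => (AlgebraicClosure ℚ ≃ₐ[ℚ] AlgebraicClosure ℚ)
local notation "EQ" W => ((WeierstrassCurve.map W (Int.castRingHom ℚ))⁄(AlgebraicClosure ℚ))

variable {W : WeierstrassCurve ℤ} {A : ValuationSubring Qbar} {q : ℕ}

namespace MultAt

variable (h : MultAt W A q)
include h

lemma isElliptic : (EQ W).IsElliptic :=
  ⟨isUnit_iff_ne_zero.2 (by rw [coeffΔ, Int.cast_ne_zero]; exact h.Δ_ne_zero)⟩

lemma one_le_ord : 1 ≤ padicValInt q W.Δ := by
  have : Fact q.Prime := ⟨h.prime⟩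
  rcases (padicValInt_dvd_iff 1 W.Δ).1 (by rw [pow_one]; exact h.dvd_Δ) with h0 | h1
  · exact absurd h0 h.Δ_ne_zero
  · exact h1

/-- `|q|` as a unit of the value group. -/
noncomputable def qUnit : A.ValueGroupˣ :=
  Units.mk0 (A.valuation (q : Qbar)) (v_prime_pos h.prime).ne'

/-- If `3 ≤ v_q(Δ)`, the component of `|q|` is realised by a point fixed by inertia. -/
lemma exists_fixed_generator (h3 : 3 ≤ padicValInt q W.Δ) :
    ∃ R : (EQ W).Point, h.node.cls R = QuotientGroup.mk h.qUnit ∧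
      ∀ σ ∈ A.inertiaSubgroupIn ℚ, σ • R = R := by
  set N := h.node
  set Q : Qbar := (q : Qbar)
  have hQ0 : Q ≠ 0 := Nat.cast_ne_zero.2 h.prime.ne_zero
  have hQ : A.valuation Q < 1 := v_prime_lt_one h.liesOver
  set γ : Qbar := -(Q + N.a / Q ^ 2)
  have hγ : A.valuation γ < 1 := by
    rw [Valuation.map_neg]
    refine Valuation.map_add_lt _ hQ ?_
    rw [map_div₀, map_pow, div_lt_one₀ (pow_pos (v_prime_pos h.prime) 2), h.v_a]
    exact pow_lt_pow_right_of_lt_one₀ (v_prime_pos h.prime) hQ (by omega)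
  obtain ⟨Y₁, hY₁le, hY₁⟩ := exists_root_le_one (v := A.valuation) (α := 1) (β := 1) (γ := γ)
    (map_one _).le hγ.le one_ne_zero (Or.inl (map_one _))
  -- the root near `-1`
  obtain ⟨Y, hY, hYroot⟩ : ∃ Y : Qbar, A.valuation (1 + Y) < 1 ∧ Y ^ 2 + Y + γ = 0 := by
    rcases lt_or_eq_of_le (Valuation.map_add_le A.valuation (map_one A.valuation).le hY₁le)
      with hlt | heq
    · exact ⟨Y₁, hlt, by linear_combination hY₁⟩
    · refine ⟨-1 - Y₁, ?_, by linear_combination hY₁⟩
      have hprod : A.valuation (Y₁ * (1 + Y₁)) < 1 := by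
        rw [show Y₁ * (1 + Y₁) = -γ by linear_combination hY₁, Valuation.map_neg]; exact hγ
      rw [map_mul, heq, mul_one] at hprod
      rwa [show 1 + (-1 - Y₁) = -Y₁ by ring, Valuation.map_neg]
  have hvY : A.valuation Y = 1 := by
    rw [show Y = (1 + Y) - 1 by ring, Valuation.map_sub_eq_of_lt_right _ (by rwa [map_one]),
      map_one]
  set x := N.u ^ 2 * Q + N.r with hx
  set y := N.u ^ 3 * (Q * Y) + N.s * (x - N.r) + N.t with hy
  have hu := N.u_ne_zero
  have hX : N.X x = Q := by simp only [NodeData.X, hx]; field_simp; ring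
  have hY' : N.Y x y = Q * Y := by simp only [NodeData.Y, hy]; field_simp; ring
  have honN : (Q * Y) * (Q + Q * Y) = Q ^ 3 + N.a := by
    have : Q ^ 2 * (Q + N.a / Q ^ 2) = Q ^ 3 + N.a := by field_simp
    rw [← this]; simp only [γ] at hYroot
    linear_combination Q ^ 2 * hYroot
  have heq : (EQ W).toAffine.Equation x y := by
    rw [Affine.equation_iff]
    simp only [hy, hx]
    linear_combination N.u ^ 6 * honN - N.u ^ 2 * Q * N.eq₄ - (N.u ^ 2 * Q) ^ 2 * N.eq₂
      + N.u ^ 3 * (Q * Y) * N.eq₃ + N.u ^ 2 * Q * (N.u ^ 3 * (Q * Y)) * N.eq₁ - N.eq₆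
  have := h.isElliptic
  have hns : (EQ W).toAffine.Nonsingular x y := Affine.equation_iff_nonsingular.1 heq
  refine ⟨.some x y hns, ?_, fun σ hσ => ?_⟩
  · rw [NodeData.cls]
    congr 1
    refine Units.ext ?_
    show wv A.valuation N.a (N.X x) (N.Y x y) = A.valuation Q
    rw [hX, hY', wv, if_pos hQ, if_pos, map_mul, hvY, mul_one]
    rw [show Q + Q * Y = Q * (1 + Y) by ring, map_mul, map_mul, hvY]
    exact mul_le_mul_of_nonneg_left hY.le zero_le
  · obtain ⟨hr, hs, ht, hu', ha⟩ : σ N.r = N.r ∧ σ N.s = N.s ∧ σ N.t = N.t ∧ σ N.u = N.u ∧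
        σ N.a = N.a := h.node_fixed hσ
    have hσQ : σ Q = Q := map_natCast σ q
    have hσY : σ Y = Y := by
      have e := congrArg σ hYroot
      simp only [γ, map_add, map_neg, map_pow, map_div₀, map_zero, hσQ, ha] at e
      have hfac : (σ Y - Y) * (σ Y + Y + 1) = 0 := by
        simp only [γ] at hYroot
        linear_combination e - hYroot
      refine sub_eq_zero.1 ((mul_eq_zero.1 hfac).resolve_right fun h0 => ?_)
      have h1 : A.valuation ((σ Y - Y) + 2 * (1 + Y)) < 1 := by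
        refine Valuation.map_add_lt _ (v_inertia_sub hσ hvY.le) ?_
        rw [map_mul]
        exact (mul_le_of_le_one_left zero_le (v_ofNat_le_one _ 2)).trans_lt hY
      rw [show (σ Y - Y) + 2 * (1 + Y) = 1 by linear_combination h0, map_one] at h1
      exact lt_irrefl _ h1
    show Affine.Point.some (σ x) (σ y) _ = Affine.Point.some x y hns
    congr 1 <;> simp only [hy, hx, map_add, map_sub, map_mul, map_pow, hr, hs, ht, hu', hσQ, hσY]

/-- The component of an `n`-torsion point raised to the `n` is a power of `|a|`. -/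
lemma exists_wPoint_pow {n : ℕ} {P : (EQ W).Point} (hP : n • P = 0) :
    ∃ k : ℤ, h.node.wPoint P ^ n = A.valuation h.node.a ^ k := by
  have e : h.node.cls P ^ n = 1 := by
    have := congrArg h.node.comp hP
    rw [map_nsmul, map_zero, NodeData.comp_apply, ← ofMul_pow] at this
    exact this
  rw [NodeData.cls, ← QuotientGroup.mk_pow, QuotientGroup.eq_one_iff,
    Subgroup.mem_zpowers_iff] at e
  obtain ⟨k, hk⟩ := e
  exact ⟨k, by simpa using (congrArg Units.val hk).symm⟩

/-- **Unramifiedness**: if `p ∣ v_q(Δ)` for an odd prime `p ≠ q`, inertia fixes all `p`-torsion. -/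
theorem smul_eq_of_dvd_ord {p : ℕ} (hp : p.Prime) (hp2 : p ≠ 2) (hpq : p ≠ q)
    (hdvd : p ∣ padicValInt q W.Δ) {σ : ΓQ} (hσ : σ ∈ A.inertiaSubgroupIn ℚ)
    {P : (EQ W).Point} (hP : p • P = 0) : σ • P = P := by
  have hp3 : 3 ≤ p := by have := hp.two_le; omega
  have hn : ¬ q ∣ p := fun hd => hpq ((Nat.prime_dvd_prime_iff_eq h.prime hp).1 hd).symm
  have h3 : 3 ≤ padicValInt q W.Δ := hp3.trans (Nat.le_of_dvd h.one_le_ord hdvd)
  obtain ⟨R, hR, hRfix⟩ := h.exists_fixed_generator h3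
  obtain ⟨k, hk⟩ := h.exists_wPoint_pow hP
  obtain ⟨m, hm⟩ := hdvd
  have hcls : h.node.cls P = (h.node.cls R) ^ ((m : ℤ) * k) := by
    rw [hR, NodeData.cls, ← QuotientGroup.mk_zpow]
    congr 1
    refine Units.ext ?_
    rw [Units.val_zpow_eq_zpow_val, Units.val_mk0, qUnit, Units.val_mk0]
    refine (pow_left_inj₀ zero_le zero_le hp.ne_zero).1 ?_
    rw [hk, h.v_a, hm, ← zpow_natCast _ (p * m), ← zpow_mul, ← zpow_natCast _ p, ← zpow_mul]
    push_cast
    ring_nf
  set S := P - ((m : ℤ) * k) • R with hS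
  have hSE : S ∈ h.node.E0 := by
    rw [NodeData.E0, AddMonoidHom.mem_ker, map_sub, map_zsmul, NodeData.comp_apply,
      NodeData.comp_apply, hcls, ofMul_zpow, sub_self]
  have hσR : σ • (((m : ℤ) * k) • R) = ((m : ℤ) * k) • R := by
    rw [Affine.Point.algEquiv_smul_zsmul σ, hRfix σ hσ]
  have hSfix : σ • S = S := by
    refine h.smul_eq_of_nsmul_fixed hσ hSE hn ?_
    rw [hS, nsmul_sub, hP, zero_sub, smul_neg, ← natCast_zsmul]
    erw [Affine.Point.algEquiv_smul_zsmul σ, hσR]
  calc σ • P = σ • (S + ((m : ℤ) * k) • R) := by rw [hS, sub_add_cancel]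
    _ = S + ((m : ℤ) * k) • R :=
        (DistribSMul.smul_add σ S _).trans (congrArg₂ (· + ·) hSfix hσR)
    _ = P := by rw [hS, sub_add_cancel]

/-- Inertia acts unipotently on torsion prime to `q`. -/
theorem smul_smul_sub {n : ℕ} (hn : ¬ q ∣ n) {σ : ΓQ} (hσ : σ ∈ A.inertiaSubgroupIn ℚ)
    {P : (EQ W).Point} (hP : n • P = 0) : σ • (σ • P - P) = σ • P - P := by
  have h0 : n • (σ • P - P) = 0 := by
    rw [nsmul_sub, smul_comm n σ P, hP, smul_zero, sub_zero]
  exact smul_eq_of_inZeroComponentAt h.prime h.liesOver hn hσ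
    (h.smul_sub_inZeroComponentAt hσ P) h0

/-- The identity component has no `q`-torsion outside the kernel of reduction. -/
theorem notMem_of_nsmul_q_eq_zero {P : (EQ W).Point} (hP : W.InZeroComponentAt A P)
    (hqP : q • P = 0) :
    P = 0 ∨ ∃ (x y : Qbar) (hxy : (EQ W).toAffine.Nonsingular x y),
      P = .some x y hxy ∧ x ∉ A := by
  rcases P with _ | ⟨x, y, hxy⟩
  · exact Or.inl rfl
  right
  refine ⟨x, y, hxy, rfl, fun hx => ?_⟩
  let t : h.node.E0 := ⟨_, (h.inZeroComponentAt_iff_mem_E0 _).1 hP⟩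
  have ht : q • t = 0 := Subtype.ext (by simpa [t] using hqP)
  have := charP_of_liesOverPrime (IsLocalRing.residue A) h.prime h.liesOver
  have : Fact q.Prime := ⟨h.prime⟩
  have : ExpChar (IsLocalRing.ResidueField A) q := ExpChar.prime h.prime
  have hz : (h.red t).toMul ^ q = 1 := by
    rw [← toMul_nsmul, ← map_nsmul, ht, map_zero, toMul_zero]
  have h1 : ((h.red t).toMul - 1) ^ q = 0 := by rw [sub_pow_expChar, hz, one_pow, sub_self]
  have h2 : h.red t = 0 :=
    Additive.toMul.injective (sub_eq_zero.1 (pow_eq_zero_iff h.prime.ne_zero |>.1 h1))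
  have h3 := (h.red_eq_zero_iff t).1 h2
  change A.valuation (phi (h.node.X x) (h.node.Y x y) - 1) < 1 at h3
  rw [phi_sub_one_lt_iff h.node.ha (h.node.onNode hxy.left) (h.node.mem_E0.1 t.2),
    h.node.v_X] at h3
  exact absurd (Valuation.map_sub_le _ ((A.valuation_le_one_iff x).2 hx) h.node.hr) (not_le.2 h3)

/-- A rational point of order dividing `n`, with `n` prime to `v_q(Δ)`, lies on the identity
component. -/
theorem inZeroComponentAt_of_rational {n : ℕ} (hn : Nat.Coprime n (padicValInt q W.Δ))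
    {P : (EQ W).Point} (hfix : ∀ σ : ΓQ, σ • P = P) (hP : n • P = 0) :
    W.InZeroComponentAt A P := by
  have := Fermat.Agent.Gal.isGalois_rat_qbar
  rw [h.inZeroComponentAt_iff_mem_E0, NodeData.mem_E0]
  by_contra hg
  rcases P with _ | ⟨x, y, hxy⟩
  · exact hg trivial
  obtain ⟨k, hk⟩ := h.exists_wPoint_pow hP
  set N := h.node
  have hX : A.valuation (N.X x) < 1 := not_le.1 hg
  have honN := N.onNode hxy.left
  set w := N.wPoint (.some x y hxy) with hw
  obtain ⟨hw1, hw2⟩ : A.valuation N.a < w ∧ w < 1 := wv_mem N.ha₀ N.ha honN hX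
  obtain ⟨rx, hrx⟩ : ∃ r : ℚ, (r : Qbar) = x := by
    obtain ⟨r, hr⟩ := (InfiniteGalois.mem_range_algebraMap_iff_fixed (k := ℚ) x).2
      (fun σ => (Affine.Point.some.inj (hfix σ)).1)
    exact ⟨r, by rw [← hr, eq_ratCast]⟩
  obtain ⟨ry, hry⟩ : ∃ r : ℚ, (r : Qbar) = y := by
    obtain ⟨r, hr⟩ := (InfiniteGalois.mem_range_algebraMap_iff_fixed (k := ℚ) y).2
      (fun σ => (Affine.Point.some.inj (hfix σ)).2)
    exact ⟨r, by rw [← hr, eq_ratCast]⟩
  -- the two partial derivatives are rational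
  set Pd := (EQ W).a₁ * y - (3 * x ^ 2 + 2 * (EQ W).a₂ * x + (EQ W).a₄)
  set Qd := 2 * y + (EQ W).a₁ * x + (EQ W).a₃
  have hPq : ∃ r : ℚ, (r : Qbar) = Pd :=
    ⟨(W.a₁ : ℚ) * ry - (3 * rx ^ 2 + 2 * (W.a₂ : ℚ) * rx + (W.a₄ : ℚ)), by
      simp only [Pd, coeff₁, coeff₂, coeff₄, ← hrx, ← hry]; push_cast; rfl⟩
  have hQq : ∃ r : ℚ, (r : Qbar) = Qd :=
    ⟨2 * ry + (W.a₁ : ℚ) * rx + (W.a₃ : ℚ), by
      simp only [Qd, coeff₁, coeff₃, ← hrx, ← hry]; push_cast; rfl⟩
  have hu := N.u_ne_zero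
  have eQ : Qd = N.u ^ 3 * (2 * N.Y x y + N.X x) := by
    simp only [NodeData.X, NodeData.Y, Qd]; field_simp
    linear_combination (x - N.r) * N.eq₁ + N.eq₃
  have eP : Pd + N.s * Qd = N.u ^ 4 * (N.Y x y - 3 * N.X x ^ 2) := by
    simp only [NodeData.X, NodeData.Y, Pd, Qd]; field_simp
    linear_combination (y - N.s * (x - N.r) - N.t) * N.eq₁ - 2 * (x - N.r) * N.eq₂ - N.eq₄
  have hvQ : A.valuation Qd = A.valuation (N.Y x y + (N.X x + N.Y x y)) := by
    rw [eQ, map_mul, map_pow, N.hu, one_pow, one_mul]; ring_nf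
  -- some rational number has the valuation of `w` or of `a / w`
  obtain ⟨r, hr, hr'⟩ : ∃ r : ℚ, r ≠ 0 ∧
      (A.valuation (r : Qbar) = w ∨ A.valuation (r : Qbar) * w = A.valuation N.a) := by
    have hw0 : w ≠ 0 := N.wPoint_ne_zero _
    have ok : ∀ z : Qbar, (∃ r : ℚ, (r : Qbar) = z) → A.valuation z ≠ 0 →
        (A.valuation z = w ∨ A.valuation z * w = A.valuation N.a) →
        ∃ r : ℚ, r ≠ 0 ∧
          (A.valuation (r : Qbar) = w ∨ A.valuation (r : Qbar) * w = A.valuation N.a) := by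
      rintro z ⟨r, rfl⟩ hne hz
      exact ⟨r, fun h0 => hne (by simp [h0]), hz⟩
    rcases lt_trichotomy (A.valuation (N.X x + N.Y x y)) (A.valuation (N.Y x y)) with c | c | c
    · have e : w = A.valuation (N.Y x y) := by
        simp only [hw, NodeData.wPoint, wv, if_pos hX, if_pos c.le]
      have e2 : A.valuation Qd = w := by
        rw [hvQ, Valuation.map_add_eq_of_lt_left _ c, e]
      exact ok Qd hQq (e2 ▸ hw0) (Or.inl e2)
    · have e : w = A.valuation (N.Y x y) := by
        simp only [hw, NodeData.wPoint, wv, if_pos hX, if_pos c.le]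
      have hXw : A.valuation (N.X x) ≤ w := by
        have := Valuation.map_sub_le A.valuation (g := w) (x := N.X x + N.Y x y) (y := N.Y x y)
          (by rw [c, e]) e.ge
        simpa using this
      have hv : A.valuation (N.Y x y - 3 * N.X x ^ 2) = w := by
        rw [Valuation.map_sub_eq_of_lt_left _, e]
        rw [← e, map_mul, map_pow, pow_two]
        refine (mul_le_of_le_one_left zero_le (v_ofNat_le_one _ 3)).trans_lt ?_
        exact (mul_le_mul_of_nonneg_left hXw zero_le).trans_lt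
          (mul_lt_of_lt_one_left (zero_lt_iff.2 hw0) hX)
      have hQle : A.valuation Qd ≤ w := by
        rw [hvQ]; exact Valuation.map_add_le _ e.ge (by rw [c, e])
      have hPQ : A.valuation (Pd + N.s * Qd) = w := by
        rw [eP, map_mul, map_pow, N.hu, one_pow, one_mul, hv]
      by_cases hQw : A.valuation Qd = w
      · exact ok Qd hQq (hQw ▸ hw0) (Or.inl hQw)
      · have hsQ : A.valuation (N.s * Qd) < w := by
          rw [map_mul]
          exact (mul_le_of_le_one_left zero_le N.hs).trans_lt (lt_of_le_of_ne hQle hQw)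
        have hPw : A.valuation Pd = w := by
          rw [show Pd = (Pd + N.s * Qd) - N.s * Qd by ring,
            Valuation.map_sub_eq_of_lt_left _ (by rw [hPQ]; exact hsQ), hPQ]
        exact ok Pd hPq (hPw ▸ hw0) (Or.inl hPw)
    · have e : w = A.valuation N.a / A.valuation (N.X x + N.Y x y) := by
        simp only [hw, NodeData.wPoint, wv, if_pos hX, if_neg (not_le.2 c)]
      have hpos : 0 < A.valuation (N.X x + N.Y x y) := zero_le.trans_lt c
      have e2 : A.valuation Qd = A.valuation (N.X x + N.Y x y) := by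
        rw [hvQ, Valuation.map_add_eq_of_lt_right _ c]
      exact ok Qd hQq (e2 ▸ hpos.ne') (Or.inr (by rw [e2, e, mul_div_cancel₀ _ hpos.ne']))
  obtain ⟨i, hi⟩ := v_ratCast_eq h.prime h.liesOver hr
  set π := A.valuation (q : Qbar) with hπ
  have hπ0 : 0 < π := v_prime_pos h.prime
  have hπ1 : π < 1 := v_prime_lt_one h.liesOver
  set M := padicValInt q W.Δ with hM
  have hva : A.valuation N.a = π ^ (M : ℤ) := by rw [zpow_natCast]; exact h.v_a
  obtain ⟨j, hj⟩ : ∃ j : ℤ, w = π ^ j := by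
    rcases hr' with e | e
    · exact ⟨i, e ▸ hi⟩
    · refine ⟨(M : ℤ) - i, ?_⟩
      rw [zpow_sub₀ hπ0.ne', ← hva, ← hi, eq_div_iff (by rw [hi]; exact zpow_ne_zero _ hπ0.ne'),
        mul_comm]
      exact e
  have hinj : π ^ (j * n) = π ^ ((M : ℤ) * k) := by
    rw [zpow_mul, zpow_mul, ← hj, ← hva, zpow_natCast]; exact hk
  have hjk : j * n = M * k := zpow_right_injective₀ hπ0 hπ1.ne hinj
  have hdvd : (M : ℤ) ∣ j := Int.dvd_of_dvd_mul_left_of_gcd_one
    (show (M : ℤ) ∣ j * n from ⟨k, hjk⟩) (by rw [Int.gcd_natCast_natCast]; exact hn.symm)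
  rw [hj, hva] at hw1
  rw [hj, ← zpow_zero π] at hw2
  have b1 := (zpow_lt_zpow_iff_right_of_lt_one₀ hπ0 hπ1).1 hw1
  have b2 := (zpow_lt_zpow_iff_right_of_lt_one₀ hπ0 hπ1).1 hw2
  exact absurd (Int.le_of_dvd b2 hdvd) (not_le.2 b1)

end MultAt

end Fermat.Agent.Multiplicative
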