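import Fermat.Agent.Multiplicative.Inertia
import Fermat.Prelude.Def_FLTPrelim_Modularity
/-!
# Unramified torsion of semistable models

Unramifiedness of `E[p]` for semistable integral models at primes with `p ∣ v_q(Δ)`.
-/

set_option autoImplicit false

namespace Fermat.Agent.Multiplicative

open WeierstrassCurve
open scoped WeierstrassCurve.Affine

/-- For a semistable model, `E[p]` (`p` an odd prime) is unramified at every prime `q ≠ p` with
`p ∣ v_q(Δ)` (including good primes). -/
theorem galoisRepUnramifiedAt_of_dvd {W : WeierstrassCurve ℤ} (hW : W.IsSemistableModel)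
    (hΔ : W.Δ ≠ 0) {p q : ℕ} (hp : p.Prime) (hp2 : p ≠ 2) (hq : q.Prime) (hqp : q ≠ p)
    (hdvd : p ∣ padicValInt q W.Δ) :
    WeierstrassCurve.Affine.Point.GaloisRepUnramifiedAt (K := AlgebraicClosure ℚ) ℚ
      (W.map (Int.castRingHom ℚ)).toAffine p q := by
  have hnd : ¬ q ∣ p := fun hd => hqp ((Nat.prime_dvd_prime_iff_eq hq hp).1 hd)
  by_cases hbad : (q : ℤ) ∣ W.Δ
  · intro A hA σ hσ x
    apply Subtype.ext
    have hM : MultAt W A q := ⟨hq, hA, hbad, hW q hq hbad, hΔ⟩
    refine hM.smul_eq_of_dvd_ord hp hp2 hqp.symm hdvd hσ ?_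
    have := x.2
    rw [Submodule.mem_torsionBy_iff] at this
    exact (Nat.cast_smul_eq_nsmul ℤ p _).symm.trans this
  · exact EC.Reduction.galoisRepUnramifiedAt_intModel hq hbad hnd

end Fermat.Agent.Multiplicative
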