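import Mathlib.RingTheory.Valuation.Basic
import Mathlib.Tactic.LinearCombination
import Mathlib.Tactic.FieldSimp
import Mathlib.Tactic.Ring
/-!
# Collinear points on the nodal model

Elementary valuation estimates for three collinear points on `y² + xy = x³ + a` with `|a| < 1`.
-/

set_option autoImplicit false

namespace Fermat.Agent.Multiplicative

variable {K : Type*} [Field K] {Γ₀ : Type*} [LinearOrderedCommGroupWithZero Γ₀]
variable (v : Valuation K Γ₀)

/-- Affine point of the nodal model `y² + xy = x³ + a`. -/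
def OnNode (a x y : K) : Prop := y * (x + y) = x ^ 3 + a

/-- Three collinear points of `y² + xy = x³ + a` on the line `y = l x + m`. -/
structure Triple (a x₁ y₁ x₂ y₂ x₃ y₃ l m : K) : Prop where
  hy₁ : y₁ = l * x₁ + m
  hy₂ : y₂ = l * x₂ + m
  hy₃ : y₃ = l * x₃ + m
  sum₁ : x₁ + x₂ + x₃ = l * (l + 1)
  sum₂ : x₁ * x₂ + x₁ * x₃ + x₂ * x₃ = -(m * (2 * l + 1))
  sum₃ : x₁ * x₂ * x₃ = m ^ 2 - a

/-- The valuation of a representative of the component of a point. -/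
def wv (a x y : K) : Γ₀ :=
  if v x < 1 then (if v (x + y) ≤ v y then v y else v a / v (x + y)) else 1

variable {v} {a x y x₁ y₁ x₂ y₂ x₃ y₃ l m : K}

lemma Triple.swap₁₂ (h : Triple a x₁ y₁ x₂ y₂ x₃ y₃ l m) :
    Triple a x₂ y₂ x₁ y₁ x₃ y₃ l m :=
  ⟨h.hy₂, h.hy₁, h.hy₃, by linear_combination h.sum₁, by linear_combination h.sum₂,
    by linear_combination h.sum₃⟩

lemma Triple.swap₂₃ (h : Triple a x₁ y₁ x₂ y₂ x₃ y₃ l m) :
    Triple a x₁ y₁ x₃ y₃ x₂ y₂ l m :=
  ⟨h.hy₁, h.hy₃, h.hy₂, by linear_combination h.sum₁, by linear_combination h.sum₂,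
    by linear_combination h.sum₃⟩

lemma Triple.neg (h : Triple a x₁ y₁ x₂ y₂ x₃ y₃ l m) :
    Triple a x₁ (-x₁ - y₁) x₂ (-x₂ - y₂) x₃ (-x₃ - y₃) (-1 - l) (-m) :=
  ⟨by rw [h.hy₁]; ring, by rw [h.hy₂]; ring, by rw [h.hy₃]; ring,
    by linear_combination h.sum₁, by linear_combination h.sum₂, by linear_combination h.sum₃⟩

lemma Triple.onNode₁ (h : Triple a x₁ y₁ x₂ y₂ x₃ y₃ l m) : OnNode a x₁ y₁ := by
  unfold OnNode; rw [h.hy₁]
  linear_combination (-x₁ ^ 2) * h.sum₁ + x₁ * h.sum₂ - h.sum₃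

lemma Triple.onNode₂ (h : Triple a x₁ y₁ x₂ y₂ x₃ y₃ l m) : OnNode a x₂ y₂ := h.swap₁₂.onNode₁

lemma Triple.onNode₃ (h : Triple a x₁ y₁ x₂ y₂ x₃ y₃ l m) : OnNode a x₃ y₃ :=
  h.swap₂₃.onNode₂

/-! ### A single point -/

section point

variable (ha₀ : a ≠ 0) (ha : v a < 1)
include ha₀ ha

omit ha₀ in
lemma y_lt_one (h : OnNode a x y) (hx : v x < 1) : v y < 1 := by
  by_contra hy
  rw [not_lt] at hy
  have h1 : v x < v y := hx.trans_le hy
  have h2 : v (x + y) = v y := Valuation.map_add_eq_of_lt_right v h1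
  have h3 : v (x ^ 3 + a) < 1 :=
    Valuation.map_add_lt v (by rw [map_pow]; exact pow_lt_one₀ zero_le hx three_ne_zero) ha
  rw [← h, map_mul, h2] at h3
  exact absurd h3 (not_lt.2 (one_le_mul hy hy))

omit ha₀ ha in
lemma eq_of_lt (_ha : v a < 1) (h : OnNode a x y) (hx : v x < 1) (hlt : v (x + y) < v y) :
    v x = v y ∧ v a < v y * v y := by
  have hxy : v x = v y := by
    have := Valuation.map_sub_eq_of_lt_right v hlt
    simpa using this
  have hy0 : 0 < v y := zero_le.trans_lt hlt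
  refine ⟨hxy, ?_⟩
  have h1 : v (y * (x + y)) < v y * v y := by
    rw [map_mul]; exact mul_lt_mul_of_pos_left hlt hy0
  have h2 : v (x ^ 3) < v y * v y := by
    rw [map_pow, hxy, pow_succ, pow_two]
    exact mul_lt_of_lt_one_right (mul_pos hy0 hy0) (hxy ▸ hx)
  have h3 : a = y * (x + y) - x ^ 3 := by rw [h]; ring
  rw [h3]
  exact Valuation.map_sub_lt v h1 h2

omit ha in
lemma sq_eq_of_eq (_ha : v a < 1) (h : OnNode a x y) (hx : v x < 1) (he : v (x + y) = v y) :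
    v a = v y * v y := by
  have hxy : v x ≤ v y := by
    have := Valuation.map_sub v (x + y) y
    simpa [he] using this
  have hy0 : 0 < v y := by
    refine zero_lt_iff.2 fun h0 => ha₀ ?_
    have hy : y = 0 := (map_eq_zero v).1 h0
    have hx0 : x = 0 := by
      apply (map_eq_zero v).1
      exact le_antisymm (h0 ▸ hxy) zero_le
    have := h
    simp only [OnNode, hy, hx0] at this
    simpa using this.symm
  have h1 : v (y * (x + y)) = v y * v y := by rw [map_mul, he]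
  have h2 : v (x ^ 3) < v y * v y := by
    rw [map_pow, pow_succ, pow_two]
    calc v x * v x * v x ≤ v y * v y * v x :=
          mul_le_mul' (mul_le_mul' hxy hxy) le_rfl
      _ < v y * v y := mul_lt_of_lt_one_right (mul_pos hy0 hy0) hx
  have h3 : a = y * (x + y) - x ^ 3 := by rw [h]; ring
  rw [h3, Valuation.map_sub_eq_of_lt_left v (h1.symm ▸ h2), h1]

omit ha₀ ha in
lemma wv_eq_one (hx : 1 ≤ v x) : wv v a x y = 1 := if_neg (not_lt.2 hx)

/-- A singular-reducing point has component valuation strictly between `|a|` and `1`. -/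
lemma wv_mem (h : OnNode a x y) (hx : v x < 1) : v a < wv v a x y ∧ wv v a x y < 1 := by
  have key : ∀ z : K, OnNode a x z → v (x + z) ≤ v z → v a < v z ∧ v z < 1 := by
    intro z hz hle
    have hz1 := y_lt_one ha hz hx
    refine ⟨?_, hz1⟩
    rcases hle.lt_or_eq with hlt | he
    · have h2 := (eq_of_lt ha hz hx hlt).2
      exact h2.trans_le (mul_le_of_le_one_left zero_le hz1.le)
    · have h2 := sq_eq_of_eq ha₀ ha hz hx he
      have hz0 : 0 < v z := by
        refine zero_lt_iff.2 fun h0 => ha₀ ?_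
        rw [h0, zero_mul] at h2
        exact (map_eq_zero v).1 h2
      rw [h2]
      exact mul_lt_of_lt_one_right hz0 hz1
  rw [wv, if_pos hx]
  split_ifs with hle
  · exact key y h hle
  · have hz : OnNode a x (-x - y) := by
      have := h
      simp only [OnNode] at this ⊢
      linear_combination this
    have hv1 : v (x + (-x - y)) = v y := by rw [show x + (-x - y) = -y by ring, Valuation.map_neg]
    have hv2 : v (-x - y) = v (x + y) := by
      rw [show -x - y = -(x + y) by ring, Valuation.map_neg]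
    obtain ⟨h1, h2⟩ := key _ hz (by rw [hv1, hv2]; exact (not_le.1 hle).le)
    rw [hv2] at h1 h2
    have hpos : 0 < v (x + y) := zero_le.trans_lt h1
    have ha0' : 0 < v a := zero_lt_iff.2 ((map_ne_zero v).2 ha₀)
    constructor
    · rw [lt_div_iff₀ hpos]
      exact mul_lt_of_lt_one_right ha0' h2
    · rw [div_lt_one₀ hpos]
      exact h1

lemma wv_ne_zero (h : OnNode a x y) : wv v a x y ≠ 0 := by
  by_cases hx : v x < 1
  · exact ((zero_le.trans_lt (wv_mem ha₀ ha h hx).1)).ne'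
  · rw [wv_eq_one (not_lt.1 hx)]; exact one_ne_zero

lemma wv_neg (h : OnNode a x y) (hx : v x < 1) :
    wv v a x (-x - y) * wv v a x y = v a := by
  have hv1 : v (x + (-x - y)) = v y := by rw [show x + (-x - y) = -y by ring, Valuation.map_neg]
  have hv2 : v (-x - y) = v (x + y) := by
    rw [show -x - y = -(x + y) by ring, Valuation.map_neg]
  have hne := wv_ne_zero ha₀ ha h
  rw [wv, if_pos hx] at hne
  rw [wv, wv, if_pos hx, if_pos hx, hv1, hv2]
  rcases lt_trichotomy (v (x + y)) (v y) with hlt | he | hgt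
  · rw [if_neg (not_le.2 hlt), if_pos hlt.le, div_mul_cancel₀ _ (zero_le.trans_lt hlt).ne']
  · rw [if_pos he.ge, if_pos he.le, he]
    exact (sq_eq_of_eq ha₀ ha h hx he).symm
  · rw [if_pos hgt.le, if_neg (not_le.2 hgt)]
    exact mul_div_cancel₀ _ (zero_le.trans_lt hgt).ne'

end point

/-! ### Triples -/

section triple

variable (ha₀ : a ≠ 0) (ha : v a < 1)
include ha₀ ha

omit ha in
lemma m_ne_zero_of (h : Triple a x₁ y₁ x₂ y₂ x₃ y₃ l m) (hx : x₁ = 0) : m ≠ 0 := by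
  intro hm
  have := h.sum₃
  simp only [hx, hm, zero_mul, ne_eq, OfNat.ofNat_ne_zero, not_false_eq_true, zero_pow,
    zero_sub, zero_eq_neg] at this
  exact ha₀ this

omit ha₀ ha in
lemma wv_of_lt (h : Triple a x₁ y₁ x₂ y₂ x₃ y₃ l m) (hl : v l < 1) (hx : v x₁ < 1)
    (hν : v m < v x₁) : wv v a x₁ y₁ = v a / v x₁ := by
  have hy : v y₁ < v x₁ := by
    rw [h.hy₁]
    refine Valuation.map_add_lt v ?_ hν
    rw [map_mul]; exact mul_lt_of_lt_one_left (zero_le.trans_lt hν) hl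
  have hs : v (x₁ + y₁) = v x₁ := Valuation.map_add_eq_of_lt_left v hy
  rw [wv, if_pos hx, if_neg (by rw [hs]; exact not_le.2 hy), hs]

omit ha in
lemma wv_of_le (h : Triple a x₁ y₁ x₂ y₂ x₃ y₃ l m) (hl : v l < 1) (hx : v x₁ < 1)
    (hν : v x₁ ≤ v m) : wv v a x₁ y₁ = v m := by
  have hm : v m ≠ 0 := by
    intro h0
    refine m_ne_zero_of ha₀ h ((map_eq_zero v).1 (le_antisymm (h0 ▸ hν) zero_le)) ?_
    exact (map_eq_zero v).1 h0
  have hy : v y₁ = v m := by
    rw [h.hy₁]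
    refine Valuation.map_add_eq_of_lt_right v ?_
    rw [map_mul]
    exact (mul_le_mul_of_nonneg_left hν zero_le).trans_lt
      (mul_lt_of_lt_one_left (zero_lt_iff.2 hm) hl)
  rw [wv, if_pos hx, if_pos (Valuation.map_add_le v (hν.trans hy.ge) le_rfl), hy]

lemma wv_prod_of_l_lt (h : Triple a x₁ y₁ x₂ y₂ x₃ y₃ l m) (hl : v l < 1)
    (h₁ : v x₁ < 1) (h₂ : v x₂ < 1) (h₃ : v x₃ < 1) :
    wv v a x₁ y₁ * wv v a x₂ y₂ * wv v a x₃ y₃ = v a * v a := by
  have hm1 : v m < 1 := by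
    have hy := y_lt_one ha h.onNode₁ h₁
    have : v (y₁ - l * x₁) < 1 :=
      Valuation.map_sub_lt v hy
        (by rw [map_mul]; exact (mul_le_of_le_one_right zero_le h₁.le).trans_lt hl)
    rwa [show y₁ - l * x₁ = m by rw [h.hy₁]; ring] at this
  have hs2 : v (x₁ * x₂ + x₁ * x₃ + x₂ * x₃) = v m := by
    rw [h.sum₂, Valuation.map_neg, map_mul]
    have h2l : v (2 * l) < 1 := by
      rw [two_mul]; exact Valuation.map_add_lt v hl hl
    rw [Valuation.map_add_eq_of_lt_right v (by rwa [map_one]), map_one, mul_one]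
  -- a product of two entries one of which is at most `|m|`
  have small : ∀ p q : K, v p < 1 → v q ≤ v m → v m ≠ 0 → v (p * q) < v m := by
    intro p q hp hq hm
    rw [map_mul]
    exact (mul_le_mul_of_nonneg_left hq zero_le).trans_lt
      (mul_lt_of_lt_one_left (zero_lt_iff.2 hm) hp)
  have pairs : ∀ {x₁ y₁ x₂ y₂ x₃ y₃ : K}, Triple a x₁ y₁ x₂ y₂ x₃ y₃ l m →
      v x₁ < 1 → v x₂ < 1 → v x₃ < 1 → v (x₁ * x₂ + x₁ * x₃ + x₂ * x₃) = v m →
      v m < v x₁ → v m < v x₂ → v x₃ ≤ v m →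
      wv v a x₁ y₁ * wv v a x₂ y₂ * wv v a x₃ y₃ = v a * v a := by
    intro x₁ y₁ x₂ y₂ x₃ y₃ h h₁ h₂ h₃ hs2 c₁ c₂ c₃
    have hm : v m ≠ 0 := fun h0 =>
      m_ne_zero_of ha₀ h.swap₂₃.swap₁₂ ((map_eq_zero v).1 (le_antisymm (h0 ▸ c₃) zero_le))
        ((map_eq_zero v).1 h0)
    have hp : v (x₁ * x₂) = v m := by
      have e : x₁ * x₂ = (x₁ * x₂ + x₁ * x₃ + x₂ * x₃) - (x₁ * x₃ + x₂ * x₃) := by ring
      rw [e, Valuation.map_sub_eq_of_lt_left v, hs2]
      rw [hs2]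
      exact Valuation.map_add_lt v (small _ _ h₁ c₃ hm) (small _ _ h₂ c₃ hm)
    rw [wv_of_lt h hl h₁ c₁, wv_of_lt h.swap₁₂ hl h₂ c₂,
      wv_of_le ha₀ h.swap₂₃.swap₁₂ hl h₃ c₃, ← hp, map_mul]
    have := (zero_le.trans_lt c₁).ne'
    have := (zero_le.trans_lt c₂).ne'
    field_simp
  have ones : ∀ {x₁ y₁ x₂ y₂ x₃ y₃ : K}, Triple a x₁ y₁ x₂ y₂ x₃ y₃ l m →
      v x₁ < 1 → v x₂ < 1 → v (x₁ * x₂ + x₁ * x₃ + x₂ * x₃) = v m →
      v x₂ ≤ v m → v x₃ ≤ v m → False := by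
    intro x₁ y₁ x₂ y₂ x₃ y₃ h h₁ h₂ hs2 c₂ c₃
    have hm : v m ≠ 0 := fun h0 =>
      m_ne_zero_of ha₀ h.swap₁₂ ((map_eq_zero v).1 (le_antisymm (h0 ▸ c₂) zero_le))
        ((map_eq_zero v).1 h0)
    exact hs2.not_lt (Valuation.map_add_lt v (Valuation.map_add_lt v (small _ _ h₁ c₂ hm)
      (small _ _ h₁ c₃ hm)) (small _ _ h₂ c₃ hm))
  rcases lt_or_ge (v m) (v x₁) with c₁ | c₁ <;> rcases lt_or_ge (v m) (v x₂) with c₂ | c₂ <;>
    rcases lt_or_ge (v m) (v x₃) with c₃ | c₃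
  · -- all three above
    have hbig : v m * v m < v (x₁ * x₂ * x₃) := by
      by_cases hm : v m = 0
      · rw [hm, zero_mul, map_mul, map_mul]
        exact mul_pos (mul_pos (hm ▸ c₁) (hm ▸ c₂)) (hm ▸ c₃)
      · rw [map_mul, map_mul]
        have hm' := zero_lt_iff.2 hm
        have key : ∀ α β γ : Γ₀, v m ≤ α * β → v m < γ → v m * v m < α * β * γ := by
          intro α β γ hαβ hγ
          exact (mul_le_mul_of_nonneg_right hαβ zero_le).trans_lt
            (mul_lt_mul_of_pos_left hγ (hm'.trans_le hαβ))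
        by_contra hcon
        have n₁ : v (x₁ * x₂) < v m := by
          rw [map_mul]; by_contra hh; exact hcon (key _ _ _ (not_lt.1 hh) c₃)
        have n₂ : v (x₁ * x₃) < v m := by
          rw [map_mul]; by_contra hh
          have := key _ _ _ (not_lt.1 hh) c₂
          rw [mul_right_comm] at this
          exact hcon this
        have n₃ : v (x₂ * x₃) < v m := by
          rw [map_mul]; by_contra hh
          have := key _ _ _ (not_lt.1 hh) c₁
          rw [mul_comm (v x₂ * v x₃), ← mul_assoc] at this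
          exact hcon this
        exact hs2.not_lt (Valuation.map_add_lt v (Valuation.map_add_lt v n₁ n₂) n₃)
    have hp : v a = v (x₁ * x₂ * x₃) := by
      rw [show a = m ^ 2 - x₁ * x₂ * x₃ by rw [h.sum₃]; ring]
      rw [Valuation.map_sub_eq_of_lt_right v]
      rwa [map_pow, pow_two]
    rw [wv_of_lt h hl h₁ c₁, wv_of_lt h.swap₁₂ hl h₂ c₂,
      wv_of_lt h.swap₂₃.swap₁₂ hl h₃ c₃]
    rw [map_mul, map_mul] at hp
    have := (zero_le.trans_lt c₁).ne'
    have := (zero_le.trans_lt c₂).ne'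
    have := (zero_le.trans_lt c₃).ne'
    field_simp
    rw [hp, pow_succ, mul_assoc (_ ^ 2), mul_assoc (_ ^ 2)]
  · exact pairs h h₁ h₂ h₃ hs2 c₁ c₂ c₃
  · rw [mul_right_comm]
    exact pairs h.swap₂₃ h₁ h₃ h₂ (by rw [← hs2]; congr 1; ring) c₁ c₃ c₂
  · exact (ones h h₁ h₂ hs2 c₂ c₃).elim
  · rw [mul_assoc, mul_comm (wv v a x₁ y₁)]
    exact pairs h.swap₁₂.swap₂₃ h₂ h₃ h₁ (by rw [← hs2]; congr 1; ring) c₂ c₃ c₁
  · exact (ones h.swap₁₂ h₂ h₁ (by rw [← hs2]; congr 1; ring) c₁ c₃).elim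
  · exact (ones h.swap₂₃.swap₁₂ h₃ h₁ (by rw [← hs2]; congr 1; ring) c₁ c₂).elim
  · exact (ones h h₁ h₂ hs2 c₂ c₃).elim

/-- Three collinear singular-reducing points. -/
lemma wv_prod_three (h : Triple a x₁ y₁ x₂ y₂ x₃ y₃ l m)
    (h₁ : v x₁ < 1) (h₂ : v x₂ < 1) (h₃ : v x₃ < 1) :
    wv v a x₁ y₁ * wv v a x₂ y₂ * wv v a x₃ y₃ = v a ∨
    wv v a x₁ y₁ * wv v a x₂ y₂ * wv v a x₃ y₃ = v a * v a := by
  have hll : v l * v (l + 1) < 1 := by
    rw [← map_mul, ← h.sum₁]; exact Valuation.map_add_lt v (Valuation.map_add_lt v h₁ h₂) h₃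
  rcases lt_or_ge (v l) 1 with hl | hl
  · exact Or.inr (wv_prod_of_l_lt ha₀ ha h hl h₁ h₂ h₃)
  · left
    have hl1 : v (-1 - l) < 1 := by
      rw [show -1 - l = -(l + 1) by ring, Valuation.map_neg]
      by_contra hh
      exact absurd hll (not_lt.2 (one_le_mul hl (not_lt.1 hh)))
    have key := wv_prod_of_l_lt ha₀ ha h.neg hl1 h₁ h₂ h₃
    have e₁ := wv_neg ha₀ ha h.onNode₁ h₁
    have e₂ := wv_neg ha₀ ha h.onNode₂ h₂
    have e₃ := wv_neg ha₀ ha h.onNode₃ h₃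
    have hva : v a ≠ 0 := (map_ne_zero v).2 ha₀
    have hcube : (v a * v a) * (wv v a x₁ y₁ * wv v a x₂ y₂ * wv v a x₃ y₃) =
        (v a * v a) * v a := by
      calc (v a * v a) * (wv v a x₁ y₁ * wv v a x₂ y₂ * wv v a x₃ y₃)
          = (wv v a x₁ (-x₁ - y₁) * wv v a x₁ y₁) * (wv v a x₂ (-x₂ - y₂) * wv v a x₂ y₂)
              * (wv v a x₃ (-x₃ - y₃) * wv v a x₃ y₃) := by rw [← key]; ac_rfl
        _ = (v a * v a) * v a := by rw [e₁, e₂, e₃]
    exact mul_left_cancel₀ (mul_ne_zero hva hva) hcube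

omit ha₀ in
lemma two_sing_case (h : Triple a x₁ y₁ x₂ y₂ x₃ y₃ l m)
    (h₁ : 1 ≤ v x₁) (h₂ : v x₂ < 1) (h₃ : v x₃ < 1) (hlt : v (x₂ + y₂) < v y₂) :
    v y₃ < v (x₃ + y₃) ∧ v (x₃ + y₃) = v y₂ := by
  obtain ⟨hxy, hac⟩ := eq_of_lt ha h.onNode₂ h₂ hlt
  have hc0 : 0 < v y₂ := zero_le.trans_lt hlt
  have hc1 : v y₂ < 1 := hxy ▸ h₂
  have hs1 : v (l * (l + 1)) = v x₁ := by
    rw [← h.sum₁, add_assoc]
    exact Valuation.map_add_eq_of_lt_left v ((Valuation.map_add_lt v h₂ h₃).trans_le h₁)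
  have hL : 1 ≤ v l ∧ v (l + 1) = v l := by
    rcases lt_trichotomy (v l) 1 with hl | hl | hl
    · exfalso
      have : v (l + 1) = 1 := by
        rw [Valuation.map_add_eq_of_lt_right v (by rwa [map_one]), map_one]
      rw [map_mul, this, mul_one] at hs1
      exact absurd (hs1 ▸ h₁) (not_le.2 hl)
    · refine ⟨hl.ge, le_antisymm (Valuation.map_add_le v le_rfl (by rw [map_one, hl])) ?_⟩
      rw [map_mul, hl, one_mul] at hs1
      rw [hl, hs1]; exact h₁
    · exact ⟨hl.le, Valuation.map_add_eq_of_lt_left v (by rwa [map_one])⟩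
  obtain ⟨hL1, hL2⟩ := hL
  have hL0 : 0 < v l := zero_lt_one.trans_le hL1
  have hx1 : v x₁ = v l * v l := by rw [← hs1, map_mul, hL2]
  have hcL : v y₂ ≤ v l * v y₂ := le_mul_of_one_le_left zero_le hL1
  have hm : v m = v l * v y₂ := by
    have e : m = (x₂ + y₂) - (1 + l) * x₂ := by rw [h.hy₂]; ring
    have hv : v ((1 + l) * x₂) = v l * v y₂ := by rw [map_mul, add_comm, hL2, hxy]
    rw [e, Valuation.map_sub_eq_of_lt_right v (by rw [hv]; exact hlt.trans_le hcL), hv]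
  have hP : v (x₁ * x₂) = v l * v l * v y₂ := by rw [map_mul, hx1, hxy]
  have hmm : v (m ^ 2) = v l * v l * (v y₂ * v y₂) := by
    rw [map_pow, pow_two, hm]; ac_rfl
  have hLL : (1 : Γ₀) ≤ v l * v l := one_le_mul hL1 hL1
  have ha2 : v a < v (m ^ 2) := by
    rw [hmm]; exact hac.trans_le (le_mul_of_one_le_left zero_le hLL)
  have hx3 : v x₃ = v y₂ := by
    have e : v (x₁ * x₂ * x₃) = v l * v l * (v y₂ * v y₂) := by
      rw [h.sum₃, Valuation.map_sub_eq_of_lt_left v ha2, hmm]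
    rw [map_mul, hP, ← mul_assoc (v l * v l)] at e
    exact mul_left_cancel₀ (mul_ne_zero (mul_ne_zero hL0.ne' hL0.ne') hc0.ne') e
  have hy3 : v y₃ < v y₂ := by
    have e : y₃ * (x₁ * x₂) =
        -(l * a) + l * m * (x₂ + y₂) - m * x₂ * (x₂ + x₃) := by
      rw [h.hy₃, h.hy₂]
      linear_combination l * h.sum₃ + m * x₂ * h.sum₁
    have b1 : v (-(l * a)) < v l * v l * (v y₂ * v y₂) := by
      rw [Valuation.map_neg, map_mul, mul_assoc (v l)]
      refine mul_lt_mul_of_pos_left (hac.trans_le ?_) hL0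
      exact le_mul_of_one_le_left zero_le hL1
    have b2 : v (l * m * (x₂ + y₂)) < v l * v l * (v y₂ * v y₂) := by
      rw [map_mul, map_mul, hm, ← mul_assoc (v l), mul_assoc (v l * v l)]
      exact mul_lt_mul_of_pos_left (mul_lt_mul_of_pos_left hlt hc0) (mul_pos hL0 hL0)
    have b3 : v (m * x₂ * (x₂ + x₃)) < v l * v l * (v y₂ * v y₂) := by
      have hle : v (x₂ + x₃) ≤ v y₂ := Valuation.map_add_le v hxy.le hx3.le
      rw [map_mul, map_mul, hm, hxy, mul_assoc (v l) (v y₂) (v y₂)]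
      refine lt_of_lt_of_le (mul_lt_of_lt_one_right (mul_pos hL0 (mul_pos hc0 hc0))
        (hle.trans_lt hc1)) ?_
      exact mul_le_mul_of_nonneg_right (le_mul_of_one_le_left zero_le hL1) zero_le
    have hb : v (y₃ * (x₁ * x₂)) < v l * v l * (v y₂ * v y₂) := by
      rw [e]; exact Valuation.map_sub_lt v (Valuation.map_add_lt v b1 b2) b3
    rw [map_mul, hP, mul_comm, ← mul_assoc (v l * v l) (v y₂) (v y₂)] at hb
    exact lt_of_mul_lt_mul_left hb zero_le
  have hs : v (x₃ + y₃) = v y₂ := by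
    rw [Valuation.map_add_eq_of_lt_left v (hx3 ▸ hy3), hx3]
  exact ⟨hs ▸ hy3, hs⟩

lemma wv_prod_two (h : Triple a x₁ y₁ x₂ y₂ x₃ y₃ l m)
    (h₁ : 1 ≤ v x₁) (h₂ : v x₂ < 1) (h₃ : v x₃ < 1) :
    wv v a x₁ y₁ * wv v a x₂ y₂ * wv v a x₃ y₃ = v a := by
  rw [wv_eq_one h₁, one_mul]
  have hva : v a ≠ 0 := (map_ne_zero v).2 ha₀
  have caseI : ∀ {y₁ x₂ y₂ x₃ y₃ l m : K}, Triple a x₁ y₁ x₂ y₂ x₃ y₃ l m →
      v x₂ < 1 → v x₃ < 1 → v (x₂ + y₂) < v y₂ →
      wv v a x₂ y₂ * wv v a x₃ y₃ = v a := by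
    intro y₁ x₂ y₂ x₃ y₃ l m h h₂ h₃ hlt
    obtain ⟨h3a, h3b⟩ := two_sing_case ha h h₁ h₂ h₃ hlt
    rw [wv, wv, if_pos h₂, if_pos hlt.le, if_pos h₃, if_neg (not_le.2 h3a), h3b,
      mul_div_cancel₀ _ (zero_le.trans_lt hlt).ne']
  have caseII : ∀ {x₂ y₂ x₃ y₃ : K}, Triple a x₁ y₁ x₂ y₂ x₃ y₃ l m →
      v x₂ < 1 → v x₃ < 1 → v y₂ < v (x₂ + y₂) →
      wv v a x₂ y₂ * wv v a x₃ y₃ = v a := by
    intro x₂ y₂ x₃ y₃ h h₂ h₃ hlt
    have key := caseI h.neg h₂ h₃ (by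
      rw [show x₂ + (-x₂ - y₂) = -y₂ by ring, show -x₂ - y₂ = -(x₂ + y₂) by ring,
        Valuation.map_neg, Valuation.map_neg]
      exact hlt)
    have e₂ := wv_neg ha₀ ha h.onNode₂ h₂
    have e₃ := wv_neg ha₀ ha h.onNode₃ h₃
    refine mul_left_cancel₀ hva ?_
    calc v a * (wv v a x₂ y₂ * wv v a x₃ y₃)
        = (wv v a x₂ (-x₂ - y₂) * wv v a x₂ y₂) * (wv v a x₃ (-x₃ - y₃) * wv v a x₃ y₃) := by
          rw [← key]; ac_rfl
      _ = v a * v a := by rw [e₂, e₃]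
  rcases lt_trichotomy (v (x₂ + y₂)) (v y₂) with c₂ | c₂ | c₂
  · exact caseI h h₂ h₃ c₂
  · rcases lt_trichotomy (v (x₃ + y₃)) (v y₃) with c₃ | c₃ | c₃
    · rw [mul_comm]; exact caseI h.swap₂₃ h₃ h₂ c₃
    · rw [wv, wv, if_pos h₂, if_pos c₂.le, if_pos h₃, if_pos c₃.le]
      have e₂ := sq_eq_of_eq ha₀ ha h.onNode₂ h₂ c₂
      have e₃ := sq_eq_of_eq ha₀ ha h.onNode₃ h₃ c₃
      refine (pow_left_inj₀ zero_le zero_le two_ne_zero).1 ?_
      rw [pow_two, pow_two, mul_mul_mul_comm, ← e₂, ← e₃]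
    · rw [mul_comm]; exact caseII h.swap₂₃ h₃ h₂ c₃
  · exact caseII h h₂ h₃ c₂

omit ha₀ in
/-- A line cannot contain exactly one singular-reducing point. -/
lemma not_one_sing (h : Triple a x₁ y₁ x₂ y₂ x₃ y₃ l m)
    (h₁ : 1 ≤ v x₁) (h₂ : 1 ≤ v x₂) (h₃ : v x₃ < 1) : False := by
  have hy3 := y_lt_one ha h.onNode₃ h₃
  have em : m = y₃ - l * x₃ := by rw [h.hy₃]; ring
  rcases le_or_gt (v l) 1 with hl | hl
  · have hm : v m < 1 := by
      rw [em]
      exact Valuation.map_sub_lt v hy3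
        (by rw [map_mul]; exact (mul_le_of_le_one_left zero_le hl).trans_lt h₃)
    have hl1 : v (l + 1) ≤ 1 := Valuation.map_add_le v hl (by rw [map_one])
    have h2l1 : v (2 * l + 1) ≤ 1 :=
      Valuation.map_add_le v (by rw [two_mul]; exact Valuation.map_add_le v hl hl) (by rw [map_one])
    have s1 : v (l * (l + 1)) ≤ 1 := by rw [map_mul]; exact mul_le_one₀ hl zero_le hl1
    have s2 : v (-(m * (2 * l + 1))) < 1 := by
      rw [Valuation.map_neg, map_mul]; exact (mul_le_of_le_one_right zero_le h2l1).trans_lt hm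
    have s3 : v (m ^ 2 - a) < 1 :=
      Valuation.map_sub_lt v (by rw [map_pow]; exact pow_lt_one₀ zero_le hm two_ne_zero) ha
    have root : ∀ z : K, z ^ 3 = (l * (l + 1)) * z ^ 2 - (-(m * (2 * l + 1))) * z + (m ^ 2 - a) →
        v z ≤ 1 := by
      intro z hz
      by_contra hgt
      rw [not_le] at hgt
      have hz2 : 1 ≤ v z * v z := one_le_mul hgt.le hgt.le
      have hr : v ((l * (l + 1)) * z ^ 2 - (-(m * (2 * l + 1))) * z + (m ^ 2 - a)) ≤ v z * v z := by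
        refine Valuation.map_add_le v (Valuation.map_sub_le v ?_ ?_) (s3.le.trans hz2)
        · rw [map_mul, map_pow, pow_two]; exact mul_le_of_le_one_left zero_le s1
        · rw [map_mul]
          exact (mul_le_of_le_one_left zero_le s2.le).trans (le_mul_of_one_le_left zero_le hgt.le)
      rw [← hz, map_pow, pow_succ, pow_two] at hr
      have hpos : 0 < v z := zero_lt_one.trans hgt
      exact absurd hr (not_le.2 (lt_mul_of_one_lt_right (mul_pos hpos hpos) hgt))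
    have r₁ : v x₁ ≤ 1 := root _ (by linear_combination x₁ ^ 2 * h.sum₁ - x₁ * h.sum₂ + h.sum₃)
    have r₂ : v x₂ ≤ 1 := root _ (by linear_combination x₂ ^ 2 * h.sum₁ - x₂ * h.sum₂ + h.sum₃)
    have e : v (x₁ * x₂ + x₁ * x₃ + x₂ * x₃) = 1 := by
      have h12 : v (x₁ * x₂) = 1 := by
        rw [map_mul, le_antisymm r₁ h₁, le_antisymm r₂ h₂, one_mul]
      rw [add_assoc, Valuation.map_add_eq_of_lt_left v, h12]
      rw [h12]
      refine Valuation.map_add_lt v ?_ ?_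
      · rw [map_mul]; exact (mul_le_of_le_one_left zero_le r₁).trans_lt h₃
      · rw [map_mul]; exact (mul_le_of_le_one_left zero_le r₂).trans_lt h₃
    rw [h.sum₂] at e
    exact e.not_lt s2
  · have hl0 : 0 < v l := zero_lt_one.trans hl
    have hl1 : v (l + 1) = v l := Valuation.map_add_eq_of_lt_left v (by rwa [map_one])
    have hm : v m < v l := by
      rw [em]
      exact Valuation.map_sub_lt v (hy3.trans hl)
        (by rw [map_mul]; exact mul_lt_of_lt_one_right hl0 h₃)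
    have hs : v (x₁ + x₂ + x₃) = v l * v l := by rw [h.sum₁, map_mul, hl1]
    have h12 : v l * v l ≤ v (x₁ * x₂) := by
      rw [map_mul]
      by_contra hcon
      rw [not_le] at hcon
      have b₁ : v x₁ < v l * v l := (le_mul_of_one_le_right zero_le h₂).trans_lt hcon
      have b₂ : v x₂ < v l * v l := (le_mul_of_one_le_left zero_le h₁).trans_lt hcon
      exact hs.not_lt (Valuation.map_add_lt v (Valuation.map_add_lt v b₁ b₂)
        (h₃.trans_le (one_le_mul hl.le hl.le)))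
    have hpos : 0 < v (x₁ * x₂) := (mul_pos hl0 hl0).trans_le h12
    have e : v (x₁ * x₂ + x₁ * x₃ + x₂ * x₃) = v (x₁ * x₂) := by
      rw [add_assoc, Valuation.map_add_eq_of_lt_left v]
      refine Valuation.map_add_lt v ?_ ?_
      · rw [map_mul, map_mul]; exact mul_lt_mul_of_pos_left (h₃.trans_le h₂)
          (zero_lt_one.trans_le h₁)
      · rw [map_mul, map_mul, mul_comm (v x₁)]
        exact mul_lt_mul_of_pos_left (h₃.trans_le h₁) (zero_lt_one.trans_le h₂)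
    have h2l : v (2 * l + 1) ≤ v l :=
      Valuation.map_add_le v (by rw [two_mul]; exact Valuation.map_add_le v le_rfl le_rfl)
        (by rw [map_one]; exact hl.le)
    have : v (-(m * (2 * l + 1))) < v l * v l := by
      rw [Valuation.map_neg, map_mul]
      exact (mul_le_mul_of_nonneg_left h2l zero_le).trans_lt (mul_lt_mul_of_pos_right hm hl0)
    rw [← h.sum₂, e] at this
    exact absurd h12 (not_le.2 this)

/-- The product of the component valuations of three collinear points is a power of `|a|`. -/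
theorem wv_prod (h : Triple a x₁ y₁ x₂ y₂ x₃ y₃ l m) :
    ∃ k : ℕ, wv v a x₁ y₁ * wv v a x₂ y₂ * wv v a x₃ y₃ = v a ^ k := by
  rcases lt_or_ge (v x₁) 1 with c₁ | c₁ <;> rcases lt_or_ge (v x₂) 1 with c₂ | c₂ <;>
    rcases lt_or_ge (v x₃) 1 with c₃ | c₃
  · rcases wv_prod_three ha₀ ha h c₁ c₂ c₃ with e | e
    · exact ⟨1, by rw [pow_one, e]⟩
    · exact ⟨2, by rw [pow_two, e]⟩
  · refine ⟨1, ?_⟩
    rw [pow_one, ← wv_prod_two ha₀ ha h.swap₂₃.swap₁₂ c₃ c₁ c₂]; ac_rfl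
  · refine ⟨1, ?_⟩
    rw [pow_one, ← wv_prod_two ha₀ ha h.swap₁₂ c₂ c₁ c₃]; ac_rfl
  · exact (not_one_sing ha h.swap₁₂.swap₂₃ c₂ c₃ c₁).elim
  · exact ⟨1, by rw [pow_one, wv_prod_two ha₀ ha h c₁ c₂ c₃]⟩
  · exact (not_one_sing ha h.swap₂₃ c₁ c₃ c₂).elim
  · exact (not_one_sing ha h c₁ c₂ c₃).elim
  · exact ⟨0, by rw [pow_zero, wv_eq_one c₁, wv_eq_one c₂, wv_eq_one c₃, one_mul, one_mul]⟩

end triple

end Fermat.Agent.Multiplicative
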